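import Fermat.Agent.CongruentNumber.Main
import Fermat.Agent.Torsion.Quartic
import Mathlib.NumberTheory.FLT.Four

/-!
# The numbers `1` and `2` are not congruent; `5`, `6` and `7` are

So `y² = x³ - x` and `y² = x³ - 4 x` have Mordell–Weil group `ℤ/2 × ℤ/2`, while `y² = x³ - n² x`
has infinitely many rational points for `n = 5, 6, 7`.
-/

set_option autoImplicit false
set_option linter.style.haveILetI false

noncomputable section

open WeierstrassCurve

namespace FA.CongruentNumber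

/-- A rational whose square is an integer is an integer. -/
theorem exists_int_of_sq {w : ℚ} {k : ℤ} (h : w ^ 2 = k) : ∃ m : ℤ, w = m := by
  refine ⟨w.num, ((Rat.den_eq_one_iff w).mp ?_).symm⟩
  have := congrArg Rat.den h
  rw [Rat.den_pow, Rat.den_intCast] at this
  exact (pow_eq_one_iff.mp this).resolve_right two_ne_zero

/-- `t⁴ = 1 + w²` forces `w = 0`. -/
theorem eq_zero_of_pow_four_eq {t w : ℚ} (h : t ^ 4 = 1 + w ^ 2) : w = 0 := by
  have hd : ((t.den : ℤ) : ℚ) ≠ 0 := Int.cast_ne_zero.mpr (Int.natCast_ne_zero.mpr t.den_ne_zero)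
  have ht : t * ((t.den : ℤ) : ℚ) = (t.num : ℚ) := by exact_mod_cast Rat.mul_den_eq_num t
  have hw : (w * ((t.den : ℤ) : ℚ) ^ 2) ^ 2 = ((t.num ^ 4 - (t.den : ℤ) ^ 4 : ℤ) : ℚ) := by
    rw [Int.cast_sub, Int.cast_pow, Int.cast_pow, ← ht]
    linear_combination -((t.den : ℤ) : ℚ) ^ 4 * h
  obtain ⟨m, hm⟩ := exists_int_of_sq hw
  rw [hm] at hw
  have hw' : m ^ 2 = t.num ^ 4 - (t.den : ℤ) ^ 4 := by exact_mod_cast hw
  have hco : IsCoprime t.num (t.den : ℤ) := by
    rw [Int.isCoprime_iff_gcd_eq_one, Int.gcd, Int.natAbs_natCast]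
    exact t.reduced
  rcases FA.Torsion.quartic_sub_eq_sq hco (z := m) (by linarith) with h0 | h0
  · exact absurd h0 (Int.natCast_ne_zero.mpr t.den_ne_zero)
  · subst h0
    rw [Int.cast_zero] at hm
    exact (mul_eq_zero.mp hm).resolve_right (pow_ne_zero _ hd)

/-- `t⁴ + 1 = w²` forces `t = 0`. -/
theorem eq_zero_of_pow_four_add_one {t w : ℚ} (h : t ^ 4 + 1 = w ^ 2) : t = 0 := by
  by_contra h0
  have ht : t * ((t.den : ℤ) : ℚ) = (t.num : ℚ) := by exact_mod_cast Rat.mul_den_eq_num t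
  have hw : (w * ((t.den : ℤ) : ℚ) ^ 2) ^ 2 = ((t.num ^ 4 + (t.den : ℤ) ^ 4 : ℤ) : ℚ) := by
    rw [Int.cast_add, Int.cast_pow, Int.cast_pow, ← ht]
    linear_combination -((t.den : ℤ) : ℚ) ^ 4 * h
  obtain ⟨m, hm⟩ := exists_int_of_sq hw
  rw [hm] at hw
  exact not_fermat_42 (Rat.num_ne_zero.mpr h0) (Int.natCast_ne_zero.mpr t.den_ne_zero)
    (c := m) (by exact_mod_cast hw.symm)

end FA.CongruentNumber

namespace FA.Summary

open FA.CongruentNumber

/-- **`1` is not a congruent number.** -/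
theorem one_not_congruent :
    ¬ ∃ a b c : ℚ, 0 < a ∧ 0 < b ∧ 0 < c ∧ a ^ 2 + b ^ 2 = c ^ 2 ∧ a * b / 2 = 1 := by
  rintro ⟨a, b, c, ha, hb, -, habc, harea⟩
  have hab : a * b = 2 := by linarith
  have hw : (a ^ 2 - b ^ 2) / 4 = 0 := eq_zero_of_pow_four_eq (t := c / 2)
    (by linear_combination -(a ^ 2 + b ^ 2 + c ^ 2) / 16 * habc + (a * b + 2) / 4 * hab)
  have h1 : a = b := (pow_left_inj₀ ha.le hb.le two_ne_zero).mp (by linarith)
  subst h1
  obtain ⟨m, hm⟩ := exists_int_of_sq (show a ^ 2 = ((2 : ℤ) : ℚ) by push_cast; linarith)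
  have hm2 : m * m = 2 := by rw [hm] at hab; exact_mod_cast hab
  have h1 : m ≤ 1 := by nlinarith
  have h2 : -1 ≤ m := by nlinarith
  interval_cases m <;> omega

/-- **`2` is not a congruent number.** -/
theorem two_not_congruent :
    ¬ ∃ a b c : ℚ, 0 < a ∧ 0 < b ∧ 0 < c ∧ a ^ 2 + b ^ 2 = c ^ 2 ∧ a * b / 2 = 2 := by
  rintro ⟨a, b, c, -, hb, -, habc, harea⟩
  have hab : a * b = 4 := by linarith
  have h := eq_zero_of_pow_four_add_one (t := b / 2) (w := b * c / 4)
    (by linear_combination b ^ 2 / 16 * habc - (a * b + 4) / 16 * hab)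
  exact hb.ne' (by linarith)

end FA.Summary

namespace FA.CongruentNumber

/-- For a non-congruent `n` the whole group is `ℤ/2 × ℤ/2`. -/
theorem point_equiv_of_not_congruent {n : ℕ} (hn : n ≠ 0)
    (h : ¬ ∃ a b c : ℚ, 0 < a ∧ 0 < b ∧ 0 < c ∧ a ^ 2 + b ^ 2 = c ^ 2 ∧ a * b / 2 = n) :
    Nonempty ((congCurve n).toAffine.Point ≃+ ZMod 2 × ZMod 2) := by
  haveI : Finite (congCurve n).toAffine.Point := not_infinite_iff_finite.mp
    (fun hi => h ((FA.Summary.congruentNumber_iff_infinite n hn).mpr hi))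
  obtain ⟨-, ⟨e⟩⟩ := torsion_congCurve hn
  refine ⟨AddEquiv.trans ?_ e⟩
  exact
    { toFun := fun P => ⟨P, (AddCommGroup.mem_torsion P).mpr (isOfFinAddOrder_of_finite P)⟩
      invFun := fun P => P.1
      left_inv := fun _ => rfl
      right_inv := fun _ => rfl
      map_add' := fun _ _ => rfl }

end FA.CongruentNumber

namespace FA.Summary

open FA.CongruentNumber

/-- The Mordell–Weil group of `y² = x³ - x`. -/
theorem point_group_curve32 :
    Nonempty ((⟨0, 0, 0, -1, 0⟩ : WeierstrassCurve ℚ).toAffine.Point ≃+ ZMod 2 × ZMod 2) := by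
  have h := point_equiv_of_not_congruent one_ne_zero (by simpa using one_not_congruent)
  rwa [show congCurve 1 = ⟨0, 0, 0, -1, 0⟩ by simp [congCurve]] at h

/-- The Mordell–Weil group of `y² = x³ - 4 x`. -/
theorem point_group_curve64 :
    Nonempty ((⟨0, 0, 0, -4, 0⟩ : WeierstrassCurve ℚ).toAffine.Point ≃+ ZMod 2 × ZMod 2) := by
  have h := point_equiv_of_not_congruent (n := 2) two_ne_zero (by simpa using two_not_congruent)
  rwa [show congCurve 2 = ⟨0, 0, 0, -4, 0⟩ by norm_num [congCurve]] at h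

/-- The rational solutions of `y² = x³ - x`. -/
theorem rational_points_curve32 {x y : ℚ} (h : y ^ 2 = x ^ 3 - x) :
    y = 0 ∧ (x = 0 ∨ x = 1 ∨ x = -1) := by
  haveI : Finite (congCurve 1).toAffine.Point := not_infinite_iff_finite.mp
    fun hi => one_not_congruent (by simpa using (congruentNumber_iff_infinite 1 one_ne_zero).mpr hi)
  have hy : y = 0 := y_eq_zero_of_torsion one_ne_zero (x := x) (y := y)
    (h := nonsingular_congCurve one_ne_zero (by push_cast; linear_combination h))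
    (isOfFinAddOrder_of_finite _)
  subst hy
  have h0 : x * ((x - 1) * (x + 1)) = 0 := by linear_combination -h
  simp only [mul_eq_zero, sub_eq_zero, add_eq_zero_iff_eq_neg] at h0
  exact ⟨rfl, h0⟩

/-- `5`, `6` and `7` are congruent numbers. -/
theorem congruent_five_six_seven {n : ℕ} (hn : n ∈ ({5, 6, 7} : Finset ℕ)) :
    ∃ a b c : ℚ, 0 < a ∧ 0 < b ∧ 0 < c ∧ a ^ 2 + b ^ 2 = c ^ 2 ∧ a * b / 2 = n := by
  fin_cases hn
  · exact ⟨3 / 2, 20 / 3, 41 / 6, by norm_num⟩
  · exact ⟨3, 4, 5, by norm_num⟩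
  · exact ⟨35 / 12, 24 / 5, 337 / 60, by norm_num⟩

/-- `y² = x³ - n² x` has infinitely many rational points for `n = 5, 6, 7`. -/
theorem infinite_congruent_five_six_seven {n : ℕ} (hn : n ∈ ({5, 6, 7} : Finset ℕ)) :
    Infinite (⟨0, 0, 0, -(n : ℚ) ^ 2, 0⟩ : WeierstrassCurve ℚ).toAffine.Point :=
  (congruentNumber_iff_infinite n (by rintro rfl; simp at hn)).mp (congruent_five_six_seven hn)

end FA.Summary

end
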