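import Fermat.Agent.CongruentNumber.One
import Mathlib.LinearAlgebra.FiniteDimensional.Lemmas
import Mathlib.Tactic.FieldSimp
import Mathlib.Algebra.Order.Ring.Rat

/-!
# Fermat's equation of exponent `4` in quadratic fields

Mordell's proof of Aigner's theorem: a point of `x⁴ + y⁴ = 1` gives `t` with `2 t (1 + t²)` and
`1 - t⁴` squares in the field, and when `t` is irrational the two residual cubics have rational
roots, which are among the few rational points of `Z² = 2 X (1 + X²)` and `W² = 1 - X⁴`.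
-/

set_option autoImplicit false

noncomputable section

namespace FA.Aigner

open FA.CongruentNumber

/-- The rational points of `Z² = 2 X (1 + X²)`. -/
theorem eq_zero_or_one {X Z : ℚ} (h : Z ^ 2 = 2 * X * (1 + X ^ 2)) : X = 0 ∨ X = 1 := by
  refine or_iff_not_imp_left.2 fun hX => ?_
  have hw : (1 - X ^ 2) / (2 * X) = 0 := eq_zero_of_pow_four_eq (t := Z / (2 * X)) (by
    field_simp
    linear_combination (Z ^ 2 + 2 * X * (1 + X ^ 2)) * h)
  rw [div_eq_zero_iff] at hw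
  rcases hw with hw | hw
  · rcases sq_eq_one_iff.1 (show X ^ 2 = 1 by linarith) with h1 | h1
    · exact h1
    · subst h1; nlinarith
  · exact absurd (by linarith) hX

/-- The rational points of `W² = 1 - X⁴`. -/
theorem eq_zero_or_pm_one {X W : ℚ} (h : W ^ 2 = 1 - X ^ 4) : X = 0 ∨ X = 1 ∨ X = -1 := by
  refine or_iff_not_imp_left.2 fun hX => ?_
  have hw : W / X ^ 2 = 0 := eq_zero_of_pow_four_eq (t := 1 / X) (by
    field_simp
    linear_combination -h)
  rw [div_eq_zero_iff, or_iff_left (pow_ne_zero 2 hX)] at hw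
  subst hw
  exact sq_eq_one_iff.1 (by nlinarith [sq_nonneg (X ^ 2 - 1)])

theorem sq_ne_two (a : ℚ) : a ^ 2 ≠ 2 := fun h => by
  obtain ⟨m, rfl⟩ := exists_int_of_sq (show a ^ 2 = ((2 : ℤ) : ℚ) by push_cast; exact h)
  have h' : m * m = 2 := by rw [← sq]; exact_mod_cast h
  have : m ≤ 1 := by nlinarith
  have : -1 ≤ m := by nlinarith
  interval_cases m <;> omega

/-- `r⁴ + s⁴ = 1` and `r⁴ + w² = 1` in rationals. -/
theorem right_eq_zero {r w : ℚ} (hr : r ≠ 0) (h : r ^ 4 + w ^ 2 = 1) : w = 0 := by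
  have hw : w / r ^ 2 = 0 := eq_zero_of_pow_four_eq (t := 1 / r) (by
    field_simp
    linear_combination -h)
  simpa [hr] using hw

/-- The rational algebra: what the two residual cubics allow. -/
theorem residual {p q α β μ ν : ℚ} (hpq : p ≠ 0 ∨ q ≠ -1)
    (hA1 : 2 - 2 * α * β - p * (β ^ 2 - 2 * p) + 2 * q = 0)
    (hA0 : -α ^ 2 - q * (β ^ 2 - 2 * p) = 0) (hq : q ≠ 0)
    (hB1 : ν ^ 2 - 2 * μ * ν + 1 + q * (μ ^ 2 + 1)
      + p * (2 * μ * ν - μ ^ 2 + 1 + (μ ^ 2 + 1) * p) = 0)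
    (hB0 : 1 - ν ^ 2 + q * (2 * μ * ν - μ ^ 2 + 1 + (μ ^ 2 + 1) * p) = 0) :
    p = -1 ∧ q = -2 := by
  obtain ⟨e, he⟩ : ∃ e, β ^ 2 - 2 * p = e := ⟨_, rfl⟩
  obtain ⟨f, hf⟩ : ∃ f, 2 * μ * ν - μ ^ 2 + 1 + (μ ^ 2 + 1) * p = f := ⟨_, rfl⟩
  obtain ⟨M, hM⟩ : ∃ M, μ ^ 2 + 1 = M := ⟨_, rfl⟩
  rw [he] at hA1 hA0
  rw [hf] at hB1 hB0
  rw [hM] at hB1 hf
  have hM0 : M ≠ 0 := by rw [← hM]; positivity
  have hr : f = 0 ∨ f = M := by
    obtain ⟨r, hr⟩ : ∃ r, r * M = -f := ⟨-f / M, div_mul_cancel₀ _ hM0⟩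
    have hC : (r - 1) * (μ * r + ν) ^ 2 + (1 + r) * (1 + r ^ 2) = 0 := by
      linear_combination r * hB1 + hB0 + (r ^ 2 - p * r - q) * hr + r ^ 3 * hM
        + r ^ 2 * hf
    rcases eq_zero_or_pm_one (X := r) (W := (r - 1) * (μ * r + ν))
      (by linear_combination (r - 1) * hC) with rfl | rfl | rfl
    · exact Or.inl (by linarith)
    · norm_num at hC
    · exact Or.inr (by linarith)
  rcases eq_zero_or_one (X := e / 2) (Z := α + β * (e / 2))
    (by linear_combination (-(e / 2)) * hA1 - hA0 + (e / 2) ^ 2 * he) with h0 | h1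
  · -- `e = 0`: `α = 0`, `q = -1`
    obtain rfl : e = 0 := by linarith
    have hα : α = 0 := by
      rw [mul_zero, sub_zero] at hA0
      exact (pow_eq_zero_iff two_ne_zero).1 (by linarith)
    subst hα
    have hq1 : q = -1 := by linarith
    subst hq1
    rcases hr with rfl | hfM
    · have hν : ν ^ 2 = 1 := by linarith
      have : (μ * ν + 1) ^ 2 = 2 := by
        linear_combination -hB1 + hν + μ ^ 2 * hν + hM
      exact absurd this (sq_ne_two _)
    · rw [hfM] at hB1 hB0 hf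
      have hν : (ν - μ) ^ 2 = 0 := by linear_combination -(1 / 2 : ℚ) * hB0 + (1 / 2 : ℚ) * hB1
        - (1 / 2 : ℚ) * hf + (1 / 2 : ℚ) * hM
      rw [pow_eq_zero_iff two_ne_zero, sub_eq_zero] at hν
      subst hν
      have hp : M * p = 0 := by linear_combination hf - hM
      rcases mul_eq_zero.1 hp with h | h
      · exact absurd h hM0
      · exact absurd rfl (hpq.resolve_left (not_not_intro h))
  · -- `e = 2`
    obtain rfl : e = 2 := by linarith
    rcases hr with rfl | hfM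
    · have hν : ν ^ 2 = 1 := by linarith
      obtain ⟨σ, hσ⟩ : ∃ σ, α + β = σ := ⟨_, rfl⟩
      have hσ2 : σ ^ 2 = 4 := by
        rw [← hσ]; linear_combination he - hA1 - hA0
      obtain ⟨m, hm⟩ : ∃ m, μ * ν = m := ⟨_, rfl⟩
      have hMm : M = m ^ 2 + 1 := by rw [← hm, ← hM]; linear_combination -μ ^ 2 * hν
      have eQ : 2 - 2 * m + q * M = 0 := by linear_combination hB1 - hν + 2 * hm
      have eP : 1 + 2 * m - m ^ 2 + M * p = 0 := by
        linear_combination hf - 2 * hm + hMm + hM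
      have e4 : σ * α * M = 4 := by
        linear_combination -(M / 2) * he - (M / 2) * hA0 + (M / 2) * (β - α + σ) * hσ
          + (M / 2) * hσ2 - eP - eQ + hMm
      have e1 : (1 - m) * M = 1 := by
        linear_combination (M / 2) * eQ + (M ^ 2 / 4) * hA0 + (σ * α * M + 4) / 16 * e4
          - (α ^ 2 * M ^ 2 / 16) * hσ2
      have em : m * (m ^ 2 - m + 1) = 0 := by
        rw [hMm] at e1; linear_combination -e1
      obtain rfl : m = 0 := (mul_eq_zero.1 em).resolve_right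
        (by nlinarith [sq_nonneg (m - 1 / 2)])
      obtain rfl : M = 1 := by linarith
      constructor <;> linarith
    · rw [hfM] at hB1 hB0 hf
      have hν : (ν - μ) ^ 2 = 0 := by linear_combination -(1 / 2 : ℚ) * hB0 + (1 / 2 : ℚ) * hB1
        - (1 / 2 : ℚ) * hf + (1 / 2 : ℚ) * hM
      rw [pow_eq_zero_iff two_ne_zero, sub_eq_zero] at hν
      subst hν
      have hp : M * p = 0 := by linear_combination hf - hM
      rcases mul_eq_zero.1 hp with h | h
      · exact absurd h hM0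
      · subst h
        exact absurd (show β ^ 2 = 2 by linarith) (sq_ne_two _)

variable {K : Type*} [Field K] [CharZero K]

theorem eq_zero_of_add_mul {t : K} (ht : ∀ r : ℚ, (r : K) ≠ t) {a b : ℚ}
    (h : (a : K) + b * t = 0) : a = 0 ∧ b = 0 := by
  by_cases hb : b = 0
  · subst hb
    exact ⟨by simpa using h, rfl⟩
  · refine absurd ?_ (ht (-a / b))
    have hb' : (b : K) ≠ 0 := Rat.cast_ne_zero.2 hb
    push_cast
    rw [div_eq_iff hb']
    linear_combination -h

theorem exists_add_mul (hK : Module.finrank ℚ K = 2) {t : K} (ht : ∀ r : ℚ, (r : K) ≠ t) (z : K) :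
    ∃ a b : ℚ, z = a + b * t := by
  have hli : LinearIndependent ℚ ![(1 : K), t] := (LinearIndependent.pair_iff' one_ne_zero).2
    fun a h => ht a (by rwa [Rat.smul_one_eq_cast] at h)
  have htop := hli.span_eq_top_of_card_eq_finrank (by simp [hK])
  have hz : z ∈ Submodule.span ℚ (Set.range ![(1 : K), t]) := htop ▸ Submodule.mem_top
  rw [Matrix.range_cons, Matrix.range_cons, Matrix.range_empty, Set.union_empty,
    Set.singleton_union, Submodule.mem_span_pair] at hz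
  obtain ⟨a, b, e⟩ := hz
  exact ⟨a, b, by rw [← e, Rat.smul_one_eq_cast, Rat.smul_def]⟩

/-- A point of `x⁴ + y⁴ = 1` off the axes has `x = ± t`, `t² + t + 2 = 0`. -/
theorem exists_param (hK : Module.finrank ℚ K = 2) {x y : K} (hx : x ≠ 0) (hy : y ≠ 0)
    (h : x ^ 4 + y ^ 4 = 1) :
    ∃ t : K, (∀ r : ℚ, (r : K) ≠ t) ∧ t ^ 2 + t + 2 = 0 ∧ x ^ 2 = t ^ 2 := by
  have hv : 1 + y ^ 2 ≠ 0 := fun e => hx ((pow_eq_zero_iff (n := 4) (by norm_num)).1 (by
    linear_combination h - (y ^ 2 - 1) * e))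
  obtain ⟨t, htdef⟩ : ∃ t : K, t * (1 + y ^ 2) = x ^ 2 :=
    ⟨x ^ 2 / (1 + y ^ 2), div_mul_cancel₀ _ hv⟩
  have h1t : (1 + t ^ 2) * (1 + y ^ 2) = 2 := by
    refine mul_right_cancel₀ hv ?_
    linear_combination (t * (1 + y ^ 2) + x ^ 2) * htdef + h
  have h1t0 : 1 + t ^ 2 ≠ 0 := left_ne_zero_of_mul (h1t ▸ two_ne_zero)
  have hu : x ^ 2 * (1 + t ^ 2) = 2 * t := by linear_combination t * h1t - (1 + t ^ 2) * htdef
  have hw : y ^ 2 * (1 + t ^ 2) = 1 - t ^ 2 := by linear_combination h1t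
  by_cases htq : ∃ r : ℚ, (r : K) = t
  · exfalso
    obtain ⟨r, rfl⟩ := htq
    have hd : (1 + r ^ 2 : ℚ) ≠ 0 := by positivity
    obtain ⟨u, hxu⟩ : ∃ u : ℚ, x ^ 2 = u := ⟨2 * r / (1 + r ^ 2), by
      push_cast; rw [eq_div_iff h1t0]; exact hu⟩
    obtain ⟨v, hyv⟩ : ∃ v : ℚ, y ^ 2 = v := ⟨(1 - r ^ 2) / (1 + r ^ 2), by
      push_cast; rw [eq_div_iff h1t0]; exact hw⟩
    have huv : u ^ 2 + v ^ 2 = 1 := Rat.cast_injective (α := K) (by
      push_cast; rw [← hxu, ← hyv]; linear_combination h)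
    by_cases hxq : ∃ a : ℚ, (a : K) = x
    · obtain ⟨a, rfl⟩ := hxq
      have hua : a ^ 2 = u := Rat.cast_injective (α := K) (by push_cast; exact hxu)
      have : v = 0 := right_eq_zero (r := a) (mod_cast hx) (by rw [← huv, ← hua]; ring)
      rw [this, Rat.cast_zero] at hyv
      exact pow_ne_zero 2 hy hyv
    by_cases hyq : ∃ b : ℚ, (b : K) = y
    · obtain ⟨b, rfl⟩ := hyq
      have hvb : b ^ 2 = v := Rat.cast_injective (α := K) (by push_cast; exact hyv)
      have : u = 0 := right_eq_zero (r := b) (mod_cast hy) (by rw [← huv, ← hvb]; ring)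
      rw [this, Rat.cast_zero] at hxu
      exact pow_ne_zero 2 hx hxu
    rw [not_exists] at hxq hyq
    obtain ⟨a, b, hab⟩ := exists_add_mul hK hxq y
    obtain ⟨e1, e2⟩ := eq_zero_of_add_mul hxq (a := a ^ 2 + b ^ 2 * u - v) (b := 2 * a * b) (by
      push_cast; rw [← hxu, ← hyv, hab]; ring)
    rcases mul_eq_zero.1 e2 with e | e
    · obtain rfl : a = 0 := by linarith
      have hv' : v = b ^ 2 * u := by linarith
      rw [hv'] at huv
      have hu0 : u ≠ 0 := fun e => pow_ne_zero 2 hx (by rw [hxu, e, Rat.cast_zero])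
      have hb : b = 0 := eq_zero_of_pow_four_add_one (w := 1 / u) (by
        field_simp
        linear_combination huv)
      subst hb
      exact hy (by rw [hab]; push_cast; ring)
    · subst e
      exact hyq a (by rw [hab]; push_cast; ring)
  rw [not_exists] at htq
  obtain ⟨q, p, hpq⟩ := exists_add_mul hK htq (t * t)
  obtain ⟨α, β, hZ⟩ := exists_add_mul hK htq (x * (1 + t ^ 2))
  have ht1 : t - 1 ≠ 0 := sub_ne_zero.2 fun e => htq 1 (by rw [e, Rat.cast_one])
  obtain ⟨ν, μ, hW⟩ := exists_add_mul hK htq (y * (1 + t ^ 2) / (t - 1))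
  rw [div_eq_iff ht1] at hW
  have eZ : ((α : K) + β * t) ^ 2 = 2 * t * (1 + t ^ 2) := by
    rw [← hZ]; linear_combination (1 + t ^ 2) * hu
  have eW : ((t : K) - 1) * ((μ : K) * t + ν) ^ 2 + (1 + t) * (1 + t ^ 2) = 0 := by
    refine mul_left_cancel₀ ht1 ?_
    linear_combination (1 + t ^ 2) * hw
      - (y * (1 + t ^ 2) + ((ν : K) + μ * t) * (t - 1)) * hW
  obtain ⟨hA0, hA1⟩ := eq_zero_of_add_mul htq
    (a := -α ^ 2 - q * (β ^ 2 - 2 * p)) (b := 2 - 2 * α * β - p * (β ^ 2 - 2 * p) + 2 * q) (by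
      push_cast
      linear_combination -eZ - (2 * t - (β ^ 2 - 2 * p)) * hpq)
  obtain ⟨hB0, hB1⟩ := eq_zero_of_add_mul htq
    (a := 1 - ν ^ 2 + q * (2 * μ * ν - μ ^ 2 + 1 + (μ ^ 2 + 1) * p))
    (b := ν ^ 2 - 2 * μ * ν + 1 + q * (μ ^ 2 + 1)
      + p * (2 * μ * ν - μ ^ 2 + 1 + (μ ^ 2 + 1) * p)) (by
      push_cast
      linear_combination eW
        - (((μ : K) ^ 2 + 1) * t + (2 * μ * ν - μ ^ 2 + 1 + (μ ^ 2 + 1) * p)) * hpq)
  have hq : q ≠ 0 := by
    rintro rfl
    have : t * (t - p) = 0 := by push_cast at hpq; linear_combination hpq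
    rcases mul_eq_zero.1 this with e | e
    · exact htq 0 (by rw [e, Rat.cast_zero])
    · exact htq p (sub_eq_zero.1 e).symm
  have hpq' : p ≠ 0 ∨ q ≠ -1 := by
    by_contra hc
    obtain ⟨rfl, rfl⟩ : p = 0 ∧ q = -1 := by
      simpa only [not_or, not_not] using hc
    push_cast at hpq
    exact h1t0 (by linear_combination hpq)
  obtain ⟨rfl, rfl⟩ := residual hpq' hA1 hA0 hq hB1 hB0
  push_cast at hpq
  refine ⟨t, htq, by linear_combination hpq, mul_right_cancel₀ h1t0 ?_⟩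
  linear_combination hu - (t ^ 2 - t) * hpq

/-- A point of `x⁴ + y⁴ = 1` off the axes forces `√-7`. -/
theorem exists_sq_eq_neg_seven (hK : Module.finrank ℚ K = 2) {x y : K} (hx : x ≠ 0) (hy : y ≠ 0)
    (h : x ^ 4 + y ^ 4 = 1) : ∃ s : K, s ^ 2 = -7 := by
  obtain ⟨t, -, ht, -⟩ := exists_param hK hx hy h
  exact ⟨2 * t + 1, by linear_combination 4 * ht⟩

end FA.Aigner

end
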