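import Fermat.Agent.CongruentNumber.Prime

/-!
# Twice a prime `p ≡ 5 (mod 8)` is not a congruent number

Bastien's theorem. In `m n (m - n) (m + n) = 2 p S²` one of `m, n` is even; neither `2` nor `-2` is
a square modulo `p` and an odd square is `1` modulo `8`, which leaves `m = a²`, `n = 2 p b²`, and
then `a` is the hypotenuse of a smaller solution.
-/

set_option autoImplicit false
set_option linter.style.haveILetI false

noncomputable section

open WeierstrassCurve

namespace FA.CongruentNumber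

variable {p : ℕ} [hp : Fact p.Prime]

/-- Neither `2` nor `-2` is a square modulo `p ≡ 5 (mod 8)`. -/
theorem dvd_of_sq_add_two_mul_sq (h8 : p % 8 = 5) {b c : ℤ}
    (h : (p : ℤ) ∣ c ^ 2 + 2 * b ^ 2 ∨ (p : ℤ) ∣ c ^ 2 - 2 * b ^ 2) : (p : ℤ) ∣ b := by
  simp only [← ZMod.intCast_zmod_eq_zero_iff_dvd] at h ⊢
  push_cast at h
  by_contra hb
  have hp2 : p ≠ 2 := by omega
  rcases h with h | h
  · have h2 : IsSquare (-2 : ZMod p) := ⟨(c : ZMod p) / b, by
      field_simp; linear_combination -h⟩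
    rw [ZMod.exists_sq_eq_neg_two_iff hp2] at h2
    omega
  · have h2 : IsSquare (2 : ZMod p) := ⟨(c : ZMod p) / b, by
      field_simp; linear_combination -h⟩
    rw [ZMod.exists_sq_eq_two_iff hp2] at h2
    omega

/-- The descent step for `2 p`. -/
theorem step_double (h8 : p % 8 = 5) {m n S : ℤ} (hn : 0 < n) (hnm : n < m) (hmn : IsCoprime m n)
    (hpar : Odd (m + n)) (e : m * n * (m - n) * (m + n) = ((2 * p : ℕ) : ℤ) * S ^ 2)
    (IH : ∀ m' n' : ℤ, m'.natAbs < m.natAbs → n'.natAbs < m.natAbs → IsCoprime m' n' →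
      ∀ s : ℚ, (m' : ℚ) * n' * ((m' : ℚ) ^ 2 - (n' : ℚ) ^ 2) = ((2 * p : ℕ) : ℚ) * s ^ 2 → s = 0) :
    False := by
  push_cast at e
  have hm : 0 < m := hn.trans hnm
  have hsub : 0 < m - n := by linarith
  have hadd : 0 < m + n := by linarith
  have c2 : IsCoprime m (m - n) := by
    have := hmn.neg_right.add_mul_left_right 1
    rwa [show -n + m * 1 = m - n by ring] at this
  have c3 : IsCoprime m (m + n) := by
    have := hmn.add_mul_left_right 1
    rwa [show n + m * 1 = m + n by ring] at this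
  have c4 : IsCoprime n (m - n) := by
    have := hmn.symm.add_mul_left_right (-1)
    rwa [show m + n * -1 = m - n by ring] at this
  have c5 : IsCoprime n (m + n) := by
    have := hmn.symm.add_mul_left_right 1
    rwa [show m + n * 1 = m + n by ring] at this
  obtain ⟨t, ht⟩ := hpar
  have c6 : IsCoprime (m - n) (m + n) := by
    have h2 : IsCoprime (m - n) 2 := ⟨1, n - t, by linear_combination ht⟩
    have := (h2.mul_right c4.symm).add_mul_left_right 1
    rwa [show 2 * n + (m - n) * 1 = m + n by ring] at this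
  have hpI : Prime (p : ℤ) := Nat.prime_iff_prime_int.mp hp.out
  have notdvd : ∀ {x y : ℤ}, IsCoprime x y → (p : ℤ) ∣ x → ¬ (p : ℤ) ∣ y := fun h hx hy =>
    hpI.not_isUnit (h.isUnit_of_dvd' hx hy)
  have sq8 : ∀ {w : ℤ}, Odd w → w ^ 2 % 8 = 1 := fun {w} hw => by
    obtain ⟨i, rfl⟩ := hw
    obtain ⟨j, hj⟩ := Int.even_mul_succ_self i
    rw [show (2 * i + 1) ^ 2 = 8 * j + 1 by linear_combination 4 * hj]
    omega
  have hodd : ∀ {w : ℤ}, Odd (w ^ 2) → Odd w := fun h => (Int.odd_pow' two_ne_zero).mp h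
  have osub : Odd (m - n) := ⟨t - n, by linarith⟩
  have oadd : Odd (m + n) := ⟨t, ht⟩
  rcases Int.even_or_odd m with hev | hmo
  · -- `m` even
    obtain ⟨m', rfl⟩ := hev.two_dvd
    have e' : m' * n * (2 * m' - n) * (2 * m' + n) = p * S ^ 2 :=
      mul_left_cancel₀ (two_ne_zero' ℤ) (by linear_combination e)
    have k1 : IsCoprime m' n := hmn.of_mul_left_right
    have k2 : IsCoprime m' (2 * m' - n) := c2.of_mul_left_right
    have k3 : IsCoprime m' (2 * m' + n) := c3.of_mul_left_right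
    have hno : n % 2 = 1 := by omega
    -- two odd squares with sum `2 m`
    have squares : ∀ {c d : ℤ}, 2 * m' - n = c ^ 2 → 2 * m' + n = d ^ 2 → False :=
      fun {c d} hc hd => by
        have h1 := sq8 (hodd (hc ▸ osub))
        have h2 := sq8 (hodd (hd ▸ oadd))
        omega
    rcases hpI.dvd_or_dvd (⟨_, e'⟩ : (p : ℤ) ∣ _) with hd | hd
    rcases hpI.dvd_or_dvd hd with hd | hd
    rcases hpI.dvd_or_dvd hd with hd | hd
    · obtain ⟨-, -, ⟨c, hc⟩, ⟨d, hd'⟩⟩ := four_sq_prime (S := S) (by linarith) hn hsub hadd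
        k1 k2 k3 c4 c5 c6 (by linear_combination e') hd
      exact squares hc hd'
    · obtain ⟨-, -, ⟨c, hc⟩, ⟨d, hd'⟩⟩ := four_sq_prime (S := S) hn (by linarith : 0 < m') hsub hadd
        k1.symm c4 c5 k2 k3 c6 (by linear_combination e') hd
      exact squares hc hd'
    · obtain ⟨-, ⟨a, ha⟩, ⟨b, hb⟩, -⟩ := four_sq_prime (S := S) hsub (by linarith : 0 < m') hn hadd
        k2.symm c4.symm c6 k1 k3 c5 (by linear_combination e') hd
      have h' : (p : ℤ) ∣ b ^ 2 - 2 * a ^ 2 := by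
        rw [← ha, ← hb, show n - 2 * m' = -(2 * m' - n) by ring]; exact hd.neg_right
      exact notdvd k2.symm hd
        (ha ▸ dvd_pow (dvd_of_sq_add_two_mul_sq h8 (Or.inr h')) two_ne_zero)
    · obtain ⟨-, ⟨a, ha⟩, ⟨b, hb⟩, -⟩ := four_sq_prime (S := S) hadd (by linarith : 0 < m') hn hsub
        k3.symm c5.symm c6.symm k1 k2 c4 (by linear_combination e') hd
      have h' : (p : ℤ) ∣ b ^ 2 + 2 * a ^ 2 := by rw [← ha, ← hb, add_comm]; exact hd
      exact notdvd k3.symm hd
        (ha ▸ dvd_pow (dvd_of_sq_add_two_mul_sq h8 (Or.inl h')) two_ne_zero)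
  · -- `n` even
    obtain ⟨n', rfl⟩ : (2 : ℤ) ∣ n := by obtain ⟨i, hi⟩ := hmo; exact ⟨t - i, by linarith⟩
    have e' : m * n' * (m - 2 * n') * (m + 2 * n') = p * S ^ 2 :=
      mul_left_cancel₀ (two_ne_zero' ℤ) (by linear_combination e)
    have k1 : IsCoprime m n' := hmn.of_mul_right_right
    have k4 : IsCoprime n' (m - 2 * n') := c4.of_mul_left_right
    have k5 : IsCoprime n' (m + 2 * n') := c5.of_mul_left_right
    rcases hpI.dvd_or_dvd (⟨_, e'⟩ : (p : ℤ) ∣ _) with hd | hd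
    rcases hpI.dvd_or_dvd hd with hd | hd
    rcases hpI.dvd_or_dvd hd with hd | hd
    · obtain ⟨-, ⟨b, hb⟩, ⟨c, hc⟩, -⟩ := four_sq_prime (S := S) hm (by linarith : 0 < n') hsub hadd
        k1 c2 c3 k4 k5 c6 (by linear_combination e') hd
      have h' : (p : ℤ) ∣ c ^ 2 + 2 * b ^ 2 := by rw [← hc, ← hb, sub_add_cancel]; exact hd
      exact notdvd k1 hd (hb ▸ dvd_pow (dvd_of_sq_add_two_mul_sq h8 (Or.inl h')) two_ne_zero)
    · -- the descent
      obtain ⟨⟨b, hb⟩, ⟨a, ha⟩, ⟨c, hc⟩, ⟨d, hd'⟩⟩ := four_sq_prime (S := S)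
        (by linarith : 0 < n') hm hsub hadd k1.symm k4 k5 c2 c3 c6 (by linear_combination e') hd
      obtain ⟨v, hv⟩ : ∃ v, d - c = 2 * v :=
        even_iff_two_dvd.mp ((hodd (hd' ▸ oadd)).sub_odd (hodd (hc ▸ osub)))
      obtain ⟨u, rfl⟩ : ∃ u, d = u + v := ⟨d - v, by ring⟩
      obtain rfl : c = u - v := by linarith
      have h1 : u * u + v * v = a * a := by linarith
      have h2 : u * v = p * b ^ 2 := by linarith
      have huv : IsCoprime u v := by
        have hcd : IsCoprime (u - v) (u + v) :=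
          (IsCoprime.pow_iff two_pos two_pos).mp (hc ▸ hd' ▸ c6)
        obtain ⟨x, y, hxy⟩ := hcd
        exact ⟨x + y, y - x, by linear_combination hxy⟩
      obtain ⟨m₁, n₁, huv', ha', hg, -⟩ := PythagoreanTriple.coprime_classification.mp
        ⟨show PythagoreanTriple u v a from h1, Int.isCoprime_iff_gcd_eq_one.mp huv⟩
      have hb0 : b ≠ 0 := by rintro rfl; simp at hb; omega
      have key : 2 * (m₁ * n₁ * (m₁ ^ 2 - n₁ ^ 2)) = p * b ^ 2 := by
        rcases huv' with ⟨rfl, rfl⟩ | ⟨rfl, rfl⟩ <;> linear_combination h2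
      have hm0 : m₁ ≠ 0 := by
        rintro rfl; simp at key; exact hb0 (key.resolve_left hp.out.ne_zero)
      have hn0 : n₁ ≠ 0 := by
        rintro rfl; simp at key; exact hb0 (key.resolve_left hp.out.ne_zero)
      have hlt : m₁ ^ 2 + n₁ ^ 2 ≤ m := by
        rw [ha, ← Int.natAbs_sq a]
        have : (a.natAbs : ℤ) = m₁ ^ 2 + n₁ ^ 2 := by
          rw [Int.natCast_natAbs]
          rcases ha' with rfl | rfl
          · exact abs_of_nonneg (by positivity)
          · rw [abs_neg]; exact abs_of_nonneg (by positivity)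
        rw [this]
        exact Int.le_self_sq _
      have habs : ∀ i j : ℤ, j ≠ 0 → i ^ 2 + j ^ 2 ≤ m → i.natAbs < m.natAbs := fun i j hj h => by
        have h1 : (0 : ℤ) < j ^ 2 := by positivity
        have h2 : |i| ≤ i ^ 2 := by rw [← sq_abs i]; exact Int.le_self_sq _
        have : (i.natAbs : ℤ) < m.natAbs := by
          rw [Int.natCast_natAbs, Int.natCast_natAbs, abs_of_pos hm]; linarith
        exact_mod_cast this
      have := IH m₁ n₁ (habs m₁ n₁ hn0 hlt) (habs n₁ m₁ hm0 (by linarith))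
        (Int.isCoprime_iff_gcd_eq_one.mpr hg) ((b : ℚ) / 2) (by
          have key' : (2 : ℚ) * (m₁ * n₁ * ((m₁ : ℚ) ^ 2 - (n₁ : ℚ) ^ 2)) = p * (b : ℚ) ^ 2 := by
            exact_mod_cast key
          push_cast
          linear_combination key' / 2)
      exact hb0 (by simpa using this)
    · obtain ⟨-, ⟨a, ha⟩, ⟨b, hb⟩, -⟩ := four_sq_prime (S := S) hsub hm (by linarith : 0 < n') hadd
        c2.symm k4.symm c6 k1 c3 k5 (by linear_combination e') hd
      have h' : (p : ℤ) ∣ a ^ 2 - 2 * b ^ 2 := by rw [← ha, ← hb]; exact hd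
      exact notdvd k4.symm hd
        (hb ▸ dvd_pow (dvd_of_sq_add_two_mul_sq h8 (Or.inr h')) two_ne_zero)
    · obtain ⟨-, ⟨a, ha⟩, ⟨b, hb⟩, -⟩ := four_sq_prime (S := S) hadd hm (by linarith : 0 < n') hsub
        c3.symm k5.symm c6.symm k1 c2 k4 (by linear_combination e') hd
      have h' : (p : ℤ) ∣ a ^ 2 + 2 * b ^ 2 := by rw [← ha, ← hb]; exact hd
      exact notdvd k5.symm hd
        (hb ▸ dvd_pow (dvd_of_sq_add_two_mul_sq h8 (Or.inl h')) two_ne_zero)

end FA.CongruentNumber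

namespace FA.Summary

open FA.CongruentNumber

/-- **Bastien**: twice a prime `p ≡ 5 (mod 8)` is not a congruent number. -/
theorem double_prime_five_mod_eight_not_congruent (p : ℕ) (hp : p.Prime) (h8 : p % 8 = 5) :
    ¬ ∃ a b c : ℚ, 0 < a ∧ 0 < b ∧ 0 < c ∧ a ^ 2 + b ^ 2 = c ^ 2 ∧ a * b / 2 = 2 * p := by
  haveI := Fact.mk hp
  have hk : Squarefree (2 * p) :=
    (Nat.squarefree_mul ((Nat.coprime_primes Nat.prime_two hp).mpr (by omega))).mpr
      ⟨Nat.prime_two.squarefree, hp.squarefree⟩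
  simpa using not_congruent_of_step hk fun _ _ _ hn hnm hmn hodd e IH =>
    step_double h8 hn hnm hmn hodd e IH

/-- The rational points of `y² = x³ - 4 p² x` for a prime `p ≡ 5 (mod 8)`. -/
theorem point_group_double_prime_five_mod_eight (p : ℕ) (hp : p.Prime) (h8 : p % 8 = 5) :
    Nonempty ((⟨0, 0, 0, -(2 * (p : ℚ)) ^ 2, 0⟩ : WeierstrassCurve ℚ).toAffine.Point ≃+
      ZMod 2 × ZMod 2) := by
  have h := point_equiv_of_not_congruent (n := 2 * p) (by omega)
    (by simpa using double_prime_five_mod_eight_not_congruent p hp h8)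
  rwa [show congCurve (2 * p) = ⟨0, 0, 0, -(2 * (p : ℚ)) ^ 2, 0⟩ by simp [congCurve]] at h

end FA.Summary

end
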