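import Fermat.Agent.Torsion.RealisedBasic
import Mathlib.NumberTheory.LSeries.PrimesInAP
import Mathlib.NumberTheory.LegendreSymbol.QuadraticChar.Basic

/-!
# Congruent numbers

The torsion subgroup of `y² = x³ - n² x` is `ℤ/2 × ℤ/2`: modulo a prime `p ≡ 3 (mod 4)` the curve
has `p + 1` points and Dirichlet's theorem leaves no room for more than four torsion points. So `n`
is the area of a rational right triangle if and only if the curve has infinitely many rational
points.
-/

set_option autoImplicit false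
set_option linter.style.haveILetI false
set_option linter.unusedSimpArgs false

noncomputable section

open WeierstrassCurve
open FA.Frob (ratCurve)
open FA.Torsion (countMod natCard_torsion_dvd torsion_equiv_of twoHom twoHom_injective)

namespace FA.CongruentNumber

/-- The curve `y² = x³ - n² x` over `ℤ`. -/
def congModel (n : ℕ) : WeierstrassCurve ℤ := ⟨0, 0, 0, -(n : ℤ) ^ 2, 0⟩

theorem congModel_Δ (n : ℕ) : (congModel n).Δ = 64 * (n : ℤ) ^ 6 := by
  simp [congModel, WeierstrassCurve.Δ, WeierstrassCurve.b₂, WeierstrassCurve.b₄,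
    WeierstrassCurve.b₆, WeierstrassCurve.b₈]
  ring

/-- Modulo a prime `p ≡ 3 (mod 4)` there are `p + 1` points. -/
theorem countMod_congModel (n : ℕ) {p : ℕ} [Fact p.Prime] (hp : p % 4 = 3) :
    countMod (congModel n) p = p + 1 := by
  classical
  have hchar : ringChar (ZMod p) ≠ 2 := by rw [ZMod.ringChar_zmod_n]; omega
  set f : ZMod p → ZMod p := fun x => x ^ 3 - (n : ZMod p) ^ 2 * x with hf
  have hodd : ∀ x, quadraticChar (ZMod p) (f (-x)) = -quadraticChar (ZMod p) (f x) := fun x => by
    rw [show f (-x) = -1 * f x by simp only [hf]; ring, map_mul, quadraticChar_neg_one hchar,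
      ZMod.card, ZMod.χ₄_nat_three_mod_four hp, neg_one_mul]
  have hsum : ∑ x, quadraticChar (ZMod p) (f x) = 0 := by
    have := Equiv.sum_comp (Equiv.neg (ZMod p)) fun x => quadraticChar (ZMod p) (f x)
    simp only [Equiv.neg_apply, hodd, Finset.sum_neg_distrib] at this
    omega
  have key : ((Finset.univ.filter fun q : ZMod p × ZMod p => q.2 ^ 2 = f q.1).card : ℤ) = p := by
    rw [Finset.card_filter, Fintype.sum_prod_type, Nat.cast_sum]
    have hx : ∀ x : ZMod p, ((∑ y : ZMod p, if y ^ 2 = f x then 1 else 0 : ℕ) : ℤ) =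
        quadraticChar (ZMod p) (f x) + 1 := fun x => by
      rw [← Finset.card_filter, ← quadraticChar_card_sqrts hchar, Set.toFinset_ofPred]
    simp only [hx, Finset.sum_add_distrib, hsum, zero_add, Finset.sum_const, Finset.card_univ,
      ZMod.card]
    simp
  rw [countMod, Nat.add_right_cancel_iff, ← @Nat.cast_inj ℤ]
  refine Eq.trans ?_ key
  congr 2
  ext q
  simp [congModel, hf, sub_eq_add_neg]

variable {n : ℕ}

theorem congModel_Δ_ne_zero (hn : n ≠ 0) : (congModel n).Δ ≠ 0 := by
  rw [congModel_Δ]; positivity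

/-- At most four torsion points. -/
theorem natCard_torsion_dvd_four (hn : n ≠ 0) [(ratCurve (congModel n)).IsElliptic] :
    Finite (AddCommGroup.torsion (ratCurve (congModel n)).toAffine.Point) ∧
      Nat.card (AddCommGroup.torsion (ratCurve (congModel n)).toAffine.Point) ∣ 4 := by
  have hgood : ∀ p : ℕ, p.Prime → 7 < p → n < p → ¬ (p : ℤ) ∣ (congModel n).Δ := by
    intro p hp h7 hnp hd
    rw [congModel_Δ, show (64 : ℤ) * (n : ℤ) ^ 6 = ((2 ^ 6 * n ^ 6 : ℕ) : ℤ) by push_cast; norm_num,
      Int.natCast_dvd_natCast] at hd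
    rcases hp.dvd_mul.mp hd with h | h
    · have := Nat.le_of_dvd two_pos (hp.dvd_of_dvd_pow h); omega
    · have := Nat.le_of_dvd (Nat.pos_of_ne_zero hn) (hp.dvd_of_dvd_pow h); omega
  obtain ⟨p₀, hp₀, hp₀'⟩ := Nat.exists_infinite_primes (n + 8)
  haveI := Fact.mk hp₀'
  obtain ⟨hfin, -⟩ := natCard_torsion_dvd p₀ (congModel n) (by omega)
    (hgood p₀ hp₀' (by omega) (by omega))
  refine ⟨hfin, ?_⟩
  set d := Nat.card (AddCommGroup.torsion (ratCurve (congModel n)).toAffine.Point)
  have hd0 : d ≠ 0 := Nat.card_pos.ne'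
  obtain ⟨k, m, hm, hkm⟩ := Nat.exists_eq_pow_mul_and_not_dvd hd0 2 (by norm_num)
  have hm2 : Nat.Coprime 2 m := Nat.prime_two.coprime_iff_not_dvd.mpr hm
  have hco : Nat.Coprime 8 m := by simpa using hm2.pow_left 3
  obtain ⟨r, hr8, hrm⟩ := Nat.chineseRemainder hco 3 1
  have hcop : r.Coprime (8 * m) := by
    refine Nat.Coprime.mul_right ?_ ?_
    · rw [Nat.Coprime, hr8.gcd_eq]; decide
    · rw [Nat.Coprime, hrm.gcd_eq, Nat.gcd_one_left]
  obtain ⟨p, hpgt, hp, hpr⟩ := Nat.forall_exists_prime_gt_and_modEq (n + 8)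
    (q := 8 * m) (by rintro h; simp at h; simp [h] at hm) hcop
  have hp8 : p ≡ 3 [MOD 8] := (hpr.of_mul_right m).trans hr8
  have hpm : p ≡ 1 [MOD m] := (hpr.of_mul_left 8).trans hrm
  haveI := Fact.mk hp
  have hdvd := (natCard_torsion_dvd p (congModel n) (by omega) (hgood p hp (by omega) (by omega))).2
  rw [countMod_congModel n (by rw [Nat.ModEq] at hp8; omega)] at hdvd
  change d ∣ p + 1 at hdvd
  rw [hkm] at hdvd ⊢
  have hm1 : m = 1 := by
    have h1 : p + 1 ≡ 2 [MOD m] := hpm.add_right 1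
    have h2 : m ∣ 2 := (Nat.modEq_zero_iff_dvd.mp
      (h1.symm.trans (Nat.modEq_zero_iff_dvd.mpr ((dvd_mul_left m _).trans hdvd))))
    exact Nat.Coprime.eq_one_of_dvd hm2.symm h2
  subst hm1
  rw [mul_one] at hdvd ⊢
  have hk : k ≤ 2 := by
    by_contra hk
    have h8 : 8 ∣ p + 1 := (pow_dvd_pow 2 (by omega : 3 ≤ k)).trans hdvd
    rw [Nat.ModEq] at hp8
    omega
  exact pow_dvd_pow 2 hk

/-- The congruent number curve over `ℚ`. -/
abbrev congCurve (n : ℕ) : WeierstrassCurve ℚ := ⟨0, 0, 0, -(n : ℚ) ^ 2, 0⟩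

theorem ratCurve_congModel (n : ℕ) : ratCurve (congModel n) = congCurve n := by
  ext <;> simp [congModel]

theorem isElliptic_congCurve (hn : n ≠ 0) : (congCurve n).IsElliptic :=
  ratCurve_congModel n ▸ FA.Frob.ratCurve_isElliptic_of_Δ (congModel_Δ_ne_zero hn)

theorem nonsingular_congCurve (hn : n ≠ 0) {x y : ℚ} (h : y ^ 2 = x ^ 3 - (n : ℚ) ^ 2 * x) :
    (congCurve n).toAffine.Nonsingular x y :=
  haveI := isElliptic_congCurve hn
  Affine.equation_iff_nonsingular.mp ((Affine.equation_iff x y).mpr (by simp; linear_combination h))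

theorem two_smul_congCurve {x : ℚ} (h : (congCurve n).toAffine.Nonsingular x 0) :
    2 • Affine.Point.some x 0 h = 0 := by
  rw [two_nsmul]
  exact Affine.Point.add_self_of_Y_eq (by simp [Affine.negY])

/-- **The torsion subgroup of `y² = x³ - n² x` is `ℤ/2 × ℤ/2`.** -/
theorem torsion_congCurve (hn : n ≠ 0) :
    Finite (AddCommGroup.torsion (congCurve n).toAffine.Point) ∧
      Nonempty (AddCommGroup.torsion (congCurve n).toAffine.Point ≃+ ZMod 2 × ZMod 2) := by
  haveI := isElliptic_congCurve hn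
  obtain ⟨hfin, hd⟩ : Finite (AddCommGroup.torsion (congCurve n).toAffine.Point) ∧
      Nat.card (AddCommGroup.torsion (congCurve n).toAffine.Point) ∣ 4 := by
    haveI := FA.Frob.ratCurve_isElliptic_of_Δ (congModel_Δ_ne_zero hn)
    rw [← ratCurve_congModel]
    exact natCard_torsion_dvd_four hn
  refine ⟨hfin, ?_⟩
  have hn' : (n : ℚ) ≠ 0 := Nat.cast_ne_zero.mpr hn
  let T : (congCurve n).toAffine.Point := .some 0 0 (nonsingular_congCurve hn (by ring))
  let P : (congCurve n).toAffine.Point := .some (n : ℚ) 0 (nonsingular_congCurve hn (by ring))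
  refine torsion_equiv_of (twoHom T P (two_smul_congCurve _) (two_smul_congCurve _))
    (twoHom_injective _ _ ?_) (by rw [Nat.card_prod, Nat.card_zmod]; exact hd)
  intro j k h
  fin_cases j <;> fin_cases k <;> simp only [Fin.val_zero, Fin.val_one, zero_smul, one_smul,
    zero_add, add_zero] at h ⊢
  · exact ⟨trivial, trivial⟩
  · exact absurd h (Affine.Point.some_ne_zero _)
  · exact absurd h (Affine.Point.some_ne_zero _)
  · rw [Affine.Point.add_some fun hh => hn' hh.1.symm] at h
    exact absurd h (Affine.Point.some_ne_zero _)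

/-- A torsion point has ordinate zero. -/
theorem y_eq_zero_of_torsion (hn : n ≠ 0) {x y : ℚ} {h : (congCurve n).toAffine.Nonsingular x y}
    (hP : IsOfFinAddOrder (Affine.Point.some x y h)) : y = 0 := by
  obtain ⟨-, ⟨e⟩⟩ := torsion_congCurve hn
  let Q : AddCommGroup.torsion (congCurve n).toAffine.Point :=
    ⟨_, (AddCommGroup.mem_torsion _).mpr hP⟩
  have h2 : 2 • Q = 0 := e.injective (by
    rw [map_nsmul, map_zero]
    exact (by decide : ∀ z : ZMod 2 × ZMod 2, 2 • z = 0) _)
  have h2' : 2 • Affine.Point.some x y h = 0 := congrArg Subtype.val h2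
  by_contra hy
  rw [two_nsmul, Affine.Point.add_self_of_Y_ne (by
    simp only [Affine.negY]
    intro he
    exact hy (by linarith))] at h2'
  exact Affine.Point.some_ne_zero _ h2'

end FA.CongruentNumber

namespace FA.Summary

open FA.CongruentNumber

/-- The torsion subgroup of a congruent number curve. -/
theorem congruentNumberCurve_torsion (n : ℕ) (hn : n ≠ 0) :
    Nonempty (AddCommGroup.torsion
      (⟨0, 0, 0, -(n : ℚ) ^ 2, 0⟩ : WeierstrassCurve ℚ).toAffine.Point ≃+ ZMod 2 × ZMod 2) :=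
  (torsion_congCurve hn).2

/-- **Congruent numbers**: `n` is the area of a right triangle with rational sides if and only if
`y² = x³ - n² x` has infinitely many rational points. -/
theorem congruentNumber_iff_infinite (n : ℕ) (hn : n ≠ 0) :
    (∃ a b c : ℚ, 0 < a ∧ 0 < b ∧ 0 < c ∧ a ^ 2 + b ^ 2 = c ^ 2 ∧ a * b / 2 = n) ↔
      Infinite (⟨0, 0, 0, -(n : ℚ) ^ 2, 0⟩ : WeierstrassCurve ℚ).toAffine.Point := by
  have hn' : (0 : ℚ) < n := Nat.cast_pos.mpr (Nat.pos_of_ne_zero hn)
  constructor
  · rintro ⟨a, b, c, ha, hb, hc, habc, harea⟩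
    refine not_finite_iff_infinite.mp fun hfin => ?_
    have hab : a * b = 2 * n := by linarith
    have he : (2 * (n : ℚ) ^ 2 * (a + c) / b ^ 2) ^ 2 =
        ((n : ℚ) * (a + c) / b) ^ 3 - (n : ℚ) ^ 2 * ((n : ℚ) * (a + c) / b) := by
      field_simp
      linear_combination b * habc - 2 * (a + c) * hab
    have hy : 2 * (n : ℚ) ^ 2 * (a + c) / b ^ 2 = 0 := y_eq_zero_of_torsion hn
      (h := nonsingular_congCurve hn he) (isOfFinAddOrder_of_finite _)
    have : (0 : ℚ) < 2 * (n : ℚ) ^ 2 * (a + c) / b ^ 2 := by positivity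
    exact this.ne' hy
  · intro hinf
    haveI := (torsion_congCurve hn).1
    obtain ⟨P, hP⟩ : ∃ P : (congCurve n).toAffine.Point, ¬ IsOfFinAddOrder P := by
      by_contra hall
      push Not at hall
      exact not_finite_iff_infinite.mpr hinf (Finite.of_injective
        (fun P => (⟨P, (AddCommGroup.mem_torsion _).mpr (hall P)⟩ :
          AddCommGroup.torsion (congCurve n).toAffine.Point))
        fun P Q e => congrArg Subtype.val e)
    rcases P with _ | ⟨x, y, h⟩
    · exact absurd IsOfFinAddOrder.zero hP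
    have hy : y ≠ 0 := fun hy => hP (by
      subst hy
      exact isOfFinAddOrder_iff_nsmul_eq_zero.mpr ⟨2, two_pos, two_smul_congCurve h⟩)
    have he : y ^ 2 = x ^ 3 - (n : ℚ) ^ 2 * x := by
      have := (Affine.equation_iff x y).mp h.1
      simp at this
      linear_combination this
    have hx : x ≠ 0 := fun hx => hy (by rw [hx] at he; simpa using he)
    have hxn : x ^ 2 - (n : ℚ) ^ 2 ≠ 0 := fun e => hy (by
      have : y ^ 2 = 0 := by linear_combination he + x * e
      simpa using this)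
    refine ⟨|(x ^ 2 - (n : ℚ) ^ 2) / y|, |2 * n * x / y|, |(x ^ 2 + (n : ℚ) ^ 2) / y|,
      abs_pos.mpr (div_ne_zero hxn hy), abs_pos.mpr (by positivity), abs_pos.mpr (by positivity),
      ?_, ?_⟩
    · simp only [sq_abs]
      field_simp
      ring
    · rw [← abs_mul, show (x ^ 2 - (n : ℚ) ^ 2) / y * (2 * n * x / y) = 2 * n by
        field_simp; linear_combination -he, abs_of_pos (by positivity)]
      ring

end FA.Summary

end
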