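import Fermat.Agent.CongruentNumber.One
import Mathlib.NumberTheory.PythagoreanTriples
import Mathlib.NumberTheory.LegendreSymbol.Basic
import Mathlib.RingTheory.Int.Basic

/-!
# A prime `p ≡ 3 (mod 8)` is not a congruent number

Infinite descent on `m n (m² - n²) = p s²` with coprime `m, n` (Genocchi): the four factors are
pairwise coprime, so three are squares and one is `p` times a square; congruences modulo `p` and
modulo `8` leave only `m = a²`, `n = p b²`, and then `a` is the hypotenuse of a smaller solution.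
-/

set_option autoImplicit false
set_option linter.style.haveILetI false

noncomputable section

open WeierstrassCurve

namespace FA.CongruentNumber

/-- Pairwise coprime positive factors of a square are squares. -/
theorem sq_of_coprime_pos {a b c : ℤ} (h : IsCoprime a b) (ha : 0 < a) (e : a * b = c ^ 2) :
    ∃ r, a = r ^ 2 := by
  obtain ⟨r, hr | hr⟩ := Int.sq_of_isCoprime h e
  · exact ⟨r, hr⟩
  · nlinarith [sq_nonneg r]

/-- Four pairwise coprime positive factors of a square are squares. -/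
theorem four_sq {w x y z c : ℤ} (hw : 0 < w) (hx : 0 < x) (hy : 0 < y) (hz : 0 < z)
    (hwx : IsCoprime w x) (hwy : IsCoprime w y) (hwz : IsCoprime w z) (hxy : IsCoprime x y)
    (hxz : IsCoprime x z) (hyz : IsCoprime y z) (e : w * x * y * z = c ^ 2) :
    (∃ r, w = r ^ 2) ∧ (∃ r, x = r ^ 2) ∧ (∃ r, y = r ^ 2) ∧ ∃ r, z = r ^ 2 :=
  ⟨sq_of_coprime_pos ((hwx.mul_right hwy).mul_right hwz) hw (c := c) (by linear_combination e),
    sq_of_coprime_pos ((hwx.symm.mul_right hxy).mul_right hxz) hx (c := c) (by linear_combination e),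
    sq_of_coprime_pos ((hwy.symm.mul_right hxy.symm).mul_right hyz) hy (c := c)
      (by linear_combination e),
    sq_of_coprime_pos ((hwz.symm.mul_right hxz.symm).mul_right hyz.symm) hz (c := c)
      (by linear_combination e)⟩

/-- In four pairwise coprime positive factors of `p` times a square, the first, if divisible by `p`,
is `p` times a square and the others are squares. -/
theorem four_sq_prime {p : ℕ} [hp : Fact p.Prime] {w x y z S : ℤ} (hw : 0 < w) (hx : 0 < x)
    (hy : 0 < y) (hz : 0 < z) (hwx : IsCoprime w x) (hwy : IsCoprime w y) (hwz : IsCoprime w z)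
    (hxy : IsCoprime x y) (hxz : IsCoprime x z) (hyz : IsCoprime y z)
    (e : w * x * y * z = p * S ^ 2) (hd : (p : ℤ) ∣ w) :
    (∃ r, w = p * r ^ 2) ∧ (∃ r, x = r ^ 2) ∧ (∃ r, y = r ^ 2) ∧ ∃ r, z = r ^ 2 := by
  obtain ⟨w', rfl⟩ := hd
  have hp0 : (0 : ℤ) < p := by exact_mod_cast hp.out.pos
  obtain ⟨⟨r, rfl⟩, h⟩ := four_sq (w := w') (c := S) (pos_of_mul_pos_right hw hp0.le) hx hy hz
    hwx.of_mul_left_right hwy.of_mul_left_right hwz.of_mul_left_right hxy hxz hyz
    (mul_left_cancel₀ hp0.ne' (by linear_combination e))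
  exact ⟨⟨r, rfl⟩, h⟩

/-- An integer in the shape `k s²` with `k` squarefree and `s` rational has `s` integral. -/
theorem exists_int_of_squarefree_mul_sq {k : ℕ} (hk : Squarefree k) {s : ℚ} {K : ℤ}
    (h : (K : ℚ) = k * s ^ 2) : ∃ S : ℤ, K = k * S ^ 2 := by
  obtain ⟨M, hM⟩ := exists_int_of_sq (w := (k : ℚ) * s) (k := k * K) (by push_cast; rw [h]; ring)
  have hM' : M ^ 2 = k * K := by
    have : (M : ℚ) ^ 2 = (k : ℚ) * K := by rw [← hM, h]; ring
    exact_mod_cast this
  obtain ⟨S, rfl⟩ := (Int.squarefree_natCast.mpr hk).isRadical 2 M ⟨K, hM'⟩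
  exact ⟨S, mul_left_cancel₀ (Int.natCast_ne_zero.mpr hk.ne_zero) (by linear_combination -hM')⟩

/-- `c² = -b²` is impossible modulo `p ≡ 3 (mod 4)` unless `p ∣ b`. -/
theorem dvd_of_sq_add_sq {p : ℕ} [Fact p.Prime] (hp : p % 4 = 3) {b c : ℤ}
    (h : (p : ℤ) ∣ c ^ 2 + b ^ 2) : (p : ℤ) ∣ b := by
  rw [← ZMod.intCast_zmod_eq_zero_iff_dvd] at h ⊢
  push_cast at h
  by_contra hb
  exact ZMod.mod_four_ne_three_of_sq_eq_neg_sq' hb (x := (c : ZMod p))
    (eq_neg_of_add_eq_zero_left h) hp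

variable {p : ℕ} [hp : Fact p.Prime]

/-- The descent step for coprime `0 < n < m` of opposite parity. -/
theorem step (h8 : p % 8 = 3) {m n S : ℤ} (hn : 0 < n) (hnm : n < m) (hmn : IsCoprime m n)
    (hpar : Odd (m + n)) (e : m * n * (m - n) * (m + n) = p * S ^ 2)
    (IH : ∀ m' n' : ℤ, m'.natAbs < m.natAbs → n'.natAbs < m.natAbs → IsCoprime m' n' →
      ∀ s : ℚ, (m' : ℚ) * n' * ((m' : ℚ) ^ 2 - (n' : ℚ) ^ 2) = p * s ^ 2 → s = 0) : False := by
  have h4 : p % 4 = 3 := by omega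
  have hm : 0 < m := hn.trans hnm
  have hsub : 0 < m - n := by linarith
  have hadd : 0 < m + n := by linarith
  have c2 : IsCoprime m (m - n) := by
    have := hmn.neg_right.add_mul_left_right 1
    rwa [show -n + m * 1 = m - n by ring] at this
  have c3 : IsCoprime m (m + n) := by
    have := hmn.add_mul_left_right 1
    rwa [show n + m * 1 = m + n by ring] at this
  have c4 : IsCoprime n (m - n) := by
    have := hmn.symm.add_mul_left_right (-1)
    rwa [show m + n * -1 = m - n by ring] at this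
  have c5 : IsCoprime n (m + n) := by
    have := hmn.symm.add_mul_left_right 1
    rwa [show m + n * 1 = m + n by ring] at this
  have c6 : IsCoprime (m - n) (m + n) := by
    obtain ⟨t, ht⟩ := hpar
    have h2 : IsCoprime (m - n) 2 :=
      ⟨1, n - t, by linear_combination ht⟩
    have := (h2.mul_right c4.symm).add_mul_left_right 1
    rwa [show 2 * n + (m - n) * 1 = m + n by ring] at this
  have hpI : Prime (p : ℤ) := Nat.prime_iff_prime_int.mp hp.out
  have hdvd : (p : ℤ) ∣ m * n * (m - n) * (m + n) := ⟨_, e⟩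
  have notdvd : ∀ {x y : ℤ}, IsCoprime x y → (p : ℤ) ∣ x → ¬ (p : ℤ) ∣ y := fun h hx hy =>
    hpI.not_isUnit (h.isUnit_of_dvd' hx hy)
  rcases hpI.dvd_or_dvd hdvd with hd | hd
  rcases hpI.dvd_or_dvd hd with hd | hd
  rcases hpI.dvd_or_dvd hd with hd | hd
  · -- `p ∣ m`
    obtain ⟨-, ⟨b, hb⟩, ⟨c, hc⟩, ⟨d, hd'⟩⟩ := four_sq_prime (S := S) hm hn hsub hadd hmn c2 c3 c4
      c5 c6 (by linear_combination e) hd
    have hb' : (p : ℤ) ∣ b := dvd_of_sq_add_sq h4 (c := c) (by rw [← hc, ← hb, sub_add_cancel]; exact hd)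
    exact notdvd hmn hd (hb ▸ dvd_pow hb' two_ne_zero)
  · -- `p ∣ n`: the descent
    obtain ⟨⟨b, hb⟩, ⟨a, ha⟩, ⟨c, hc⟩, ⟨d, hd'⟩⟩ := four_sq_prime (S := S) hn hm hsub hadd hmn.symm
      c4 c5 c2 c3 c6 (by linear_combination e) hd
    have hodd : ∀ {w : ℤ}, Odd (w ^ 2) → Odd w := fun h => (Int.odd_pow' two_ne_zero).mp h
    have hco : Odd c := hodd (hc ▸ (by obtain ⟨t, ht⟩ := hpar; exact ⟨t - n, by linarith⟩))
    have hdo : Odd d := hodd (hd' ▸ hpar)
    obtain ⟨v, hv⟩ : ∃ v, d - c = 2 * v := even_iff_two_dvd.mp (hdo.sub_odd hco)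
    obtain ⟨u, rfl⟩ : ∃ u, d = u + v := ⟨d - v, by ring⟩
    obtain rfl : c = u - v := by linarith
    have h1 : u * u + v * v = a * a := by linarith
    have h2 : 2 * (u * v) = p * b ^ 2 := by linarith
    have huv : IsCoprime u v := by
      have hcd : IsCoprime (u - v) (u + v) :=
        (IsCoprime.pow_iff two_pos two_pos).mp (hc ▸ hd' ▸ c6)
      obtain ⟨x, y, hxy⟩ := hcd
      exact ⟨x + y, y - x, by linear_combination hxy⟩
    obtain ⟨m', n', huv', ha', hg, -⟩ := PythagoreanTriple.coprime_classification.mp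
      ⟨show PythagoreanTriple u v a from h1, Int.isCoprime_iff_gcd_eq_one.mp huv⟩
    have hb0 : b ≠ 0 := by rintro rfl; simp at hb; omega
    have key : 4 * (m' * n' * (m' ^ 2 - n' ^ 2)) = p * b ^ 2 := by
      rcases huv' with ⟨rfl, rfl⟩ | ⟨rfl, rfl⟩ <;> linear_combination h2
    have hm0 : m' ≠ 0 := by
      rintro rfl; simp at key; exact hb0 (key.resolve_left hp.out.ne_zero)
    have hn0 : n' ≠ 0 := by
      rintro rfl; simp at key; exact hb0 (key.resolve_left hp.out.ne_zero)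
    have hlt : m' ^ 2 + n' ^ 2 ≤ m := by
      rw [ha, ← Int.natAbs_sq a]
      have : (a.natAbs : ℤ) = m' ^ 2 + n' ^ 2 := by
        rw [Int.natCast_natAbs]
        rcases ha' with rfl | rfl
        · exact abs_of_nonneg (by positivity)
        · rw [abs_neg]; exact abs_of_nonneg (by positivity)
      rw [this]
      exact Int.le_self_sq _
    have habs : ∀ i j : ℤ, j ≠ 0 → i ^ 2 + j ^ 2 ≤ m → i.natAbs < m.natAbs := fun i j hj h => by
      have h1 : (0 : ℤ) < j ^ 2 := by positivity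
      have h2 : |i| ≤ i ^ 2 := by rw [← sq_abs i]; exact Int.le_self_sq _
      have : (i.natAbs : ℤ) < m.natAbs := by
        rw [Int.natCast_natAbs, Int.natCast_natAbs, abs_of_pos hm]; linarith
      exact_mod_cast this
    have := IH m' n' (habs m' n' hn0 hlt) (habs n' m' hm0 (by linarith))
      (Int.isCoprime_iff_gcd_eq_one.mpr hg) ((b : ℚ) / 2) (by
        have key' : (4 : ℚ) * (m' * n' * ((m' : ℚ) ^ 2 - (n' : ℚ) ^ 2)) = p * (b : ℚ) ^ 2 := by
          exact_mod_cast key
        linear_combination key' / 4)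
    exact hb0 (by simpa using this)
  · -- `p ∣ m - n`: impossible modulo `8`
    obtain ⟨⟨c, hc⟩, ⟨a, ha⟩, ⟨b, hb⟩, ⟨d, hd'⟩⟩ := four_sq_prime (S := S) hsub hm hn hadd c2.symm
      c4.symm c6 hmn c3 c5 (by linear_combination e) hd
    have hp8 : (p : ZMod 8) = 3 := by rw [← ZMod.natCast_mod, h8]; rfl
    obtain ⟨t, ht⟩ := hpar
    have e1 : ((a : ZMod 8)) ^ 2 + (b : ZMod 8) ^ 2 = (d : ZMod 8) ^ 2 := by
      exact_mod_cast congrArg (Int.cast : ℤ → ZMod 8) (by linarith : a ^ 2 + b ^ 2 = d ^ 2)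
    have e2 : ((a : ZMod 8)) ^ 2 - (b : ZMod 8) ^ 2 = 3 * (c : ZMod 8) ^ 2 := by
      rw [← hp8]
      exact_mod_cast congrArg (Int.cast : ℤ → ZMod 8) (by linarith : a ^ 2 - b ^ 2 = p * c ^ 2)
    have e3 : 4 * ((a : ZMod 8) ^ 2 + (b : ZMod 8) ^ 2) = 4 := by
      have := congrArg (Int.cast : ℤ → ZMod 8) (by linarith : 4 * (a ^ 2 + b ^ 2) = 8 * t + 4)
      push_cast at this
      rw [this, show (8 : ZMod 8) = 0 from rfl, zero_mul, zero_add]
    have key : ∀ a b c d : ZMod 8, a ^ 2 + b ^ 2 = d ^ 2 → a ^ 2 - b ^ 2 = 3 * c ^ 2 →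
        4 * (a ^ 2 + b ^ 2) ≠ 4 := by decide +kernel
    exact key _ _ _ _ e1 e2 e3
  · -- `p ∣ m + n`
    obtain ⟨-, ⟨a, ha⟩, ⟨b, hb⟩, -⟩ := four_sq_prime (S := S) hadd hm hn hsub c3.symm c5.symm c6.symm
      hmn c2 c4 (by linear_combination e) hd
    have hb' : (p : ℤ) ∣ b := dvd_of_sq_add_sq h4 (c := a) (by rw [← ha, ← hb]; exact hd)
    exact notdvd c5.symm hd (hb ▸ dvd_pow hb' two_ne_zero)

/-- `m n (m² - n²) = k s²` has only trivial solutions in coprime integers if a descent step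
exists for `0 < n < m` of opposite parity. -/
theorem descent_of_step {k : ℕ} (hk : Squarefree k)
    (hstep : ∀ m n S : ℤ, 0 < n → n < m → IsCoprime m n → Odd (m + n) →
      m * n * (m - n) * (m + n) = k * S ^ 2 →
      (∀ m' n' : ℤ, m'.natAbs < m.natAbs → n'.natAbs < m.natAbs → IsCoprime m' n' →
        ∀ s : ℚ, (m' : ℚ) * n' * ((m' : ℚ) ^ 2 - (n' : ℚ) ^ 2) = k * s ^ 2 → s = 0) → False) :
    ∀ N : ℕ, ∀ m n : ℤ, m.natAbs < N → n.natAbs < N → IsCoprime m n → ∀ s : ℚ,
      (m : ℚ) * n * ((m : ℚ) ^ 2 - (n : ℚ) ^ 2) = k * s ^ 2 → s = 0 := by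
  intro N
  induction N with
  | zero => intro m n h; omega
  | succ N ih =>
    intro m n hm hn hmn s e
    by_contra hs
    -- all signs reduce to `0 < n < m`
    suffices main : ∀ m n : ℤ, 0 < n → n < m → m.natAbs < N + 1 → IsCoprime m n →
        (m : ℚ) * n * ((m : ℚ) ^ 2 - (n : ℚ) ^ 2) = k * s ^ 2 → False by
      have hk0 : (0 : ℚ) < k := Nat.cast_pos.mpr (Nat.pos_of_ne_zero hk.ne_zero)
      have hpos : 0 < m * n * (m ^ 2 - n ^ 2) := by
        have : (0 : ℚ) < (m : ℚ) * n * ((m : ℚ) ^ 2 - (n : ℚ) ^ 2) := by rw [e]; positivity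
        exact_mod_cast this
      have pos : ∀ m n : ℤ, 0 < m → m.natAbs < N + 1 → n.natAbs < N + 1 → IsCoprime m n →
          0 < m * n * (m ^ 2 - n ^ 2) →
          (m : ℚ) * n * ((m : ℚ) ^ 2 - (n : ℚ) ^ 2) = k * s ^ 2 → False := by
        intro m n hm0 hm hn hmn hpos e
        rcases lt_trichotomy n 0 with hn0 | rfl | hn0
        · have h2 : m ^ 2 - n ^ 2 < 0 :=
            neg_of_mul_pos_right hpos (mul_neg_of_pos_of_neg hm0 hn0).le
          exact main (-n) m hm0 (by nlinarith) (by omega) hmn.symm.neg_left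
            (by push_cast; linear_combination e)
        · simp at hpos
        · have h2 : 0 < m ^ 2 - n ^ 2 := pos_of_mul_pos_right hpos (mul_pos hm0 hn0).le
          exact main m n hn0 (by nlinarith) hm hmn e
      rcases lt_trichotomy m 0 with hm0 | rfl | hm0
      · exact pos (-m) (-n) (by linarith) (by omega) (by omega) hmn.neg_neg
          (by linear_combination hpos) (by push_cast; linear_combination e)
      · simp at hpos
      · exact pos m n hm0 hm hn hmn hpos e
    intro m n hn0 hnm hm hmn e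
    rcases Int.even_or_odd (m + n) with hev | hodd
    · obtain ⟨u, hu⟩ := hev
      obtain ⟨v, rfl⟩ : ∃ v, n = u - v := ⟨u - n, by ring⟩
      obtain rfl : m = u + v := by linarith
      obtain ⟨x, y, hxy⟩ := hmn
      have h0 := ih u v (by omega) (by omega) ⟨x + y, x - y, by linear_combination hxy⟩ (s / 2)
        (by push_cast at e; linear_combination e / 4)
      exact hs (by simpa using h0)
    · obtain ⟨S, hS⟩ := exists_int_of_squarefree_mul_sq hk (s := s)
        (K := m * n * (m ^ 2 - n ^ 2)) (by push_cast; exact e)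
      refine hstep m n S hn0 hnm hmn hodd (by linear_combination hS) ?_
      intro m' n' h1 h2
      exact ih m' n' (by omega) (by omega)

/-- A number with such a descent step is not congruent. -/
theorem not_congruent_of_step {k : ℕ} (hk : Squarefree k)
    (hstep : ∀ m n S : ℤ, 0 < n → n < m → IsCoprime m n → Odd (m + n) →
      m * n * (m - n) * (m + n) = k * S ^ 2 →
      (∀ m' n' : ℤ, m'.natAbs < m.natAbs → n'.natAbs < m.natAbs → IsCoprime m' n' →
        ∀ s : ℚ, (m' : ℚ) * n' * ((m' : ℚ) ^ 2 - (n' : ℚ) ^ 2) = k * s ^ 2 → s = 0) → False) :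
    ¬ ∃ a b c : ℚ, 0 < a ∧ 0 < b ∧ 0 < c ∧ a ^ 2 + b ^ 2 = c ^ 2 ∧ a * b / 2 = k := by
  rintro ⟨a, b, c, ha, hb, hc, habc, harea⟩
  set t := b / (c + a) with ht
  have hab : a * b = 2 * k := by linarith
  have key : t * (1 - t ^ 2) = k * ((1 + t ^ 2) / c) ^ 2 := by
    have hb2 : b ^ 2 = (c - a) * (c + a) := by linear_combination habc
    have h1 : 1 + t ^ 2 = 2 * c / (c + a) := by
      rw [ht, div_pow, hb2]; field_simp; ring
    have h2 : 1 - t ^ 2 = 2 * a / (c + a) := by
      rw [ht, div_pow, hb2]; field_simp; ring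
    rw [h1, h2, ht]
    field_simp
    linear_combination hab
  have hd : ((t.den : ℤ) : ℚ) ≠ 0 := Int.cast_ne_zero.mpr (Int.natCast_ne_zero.mpr t.den_ne_zero)
  have hco : IsCoprime (t.den : ℤ) t.num := by
    rw [Int.isCoprime_iff_gcd_eq_one, Int.gcd_comm, Int.gcd, Int.natAbs_natCast]
    exact t.reduced
  have htn : (t.num : ℚ) = t * ((t.den : ℤ) : ℚ) := by exact_mod_cast (Rat.mul_den_eq_num t).symm
  have h0 := descent_of_step hk hstep ((t.den : ℤ).natAbs + t.num.natAbs + 1) t.den t.num (by omega)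
    (by omega) hco ((1 + t ^ 2) / c * ((t.den : ℤ) : ℚ) ^ 2) (by
      rw [htn]; linear_combination ((t.den : ℤ) : ℚ) ^ 4 * key)
  rcases mul_eq_zero.mp h0 with h | h
  · exact absurd h (by positivity)
  · exact pow_ne_zero _ hd h

end FA.CongruentNumber

namespace FA.Summary

open FA.CongruentNumber

/-- **Genocchi**: a prime `p ≡ 3 (mod 8)` is not a congruent number. -/
theorem prime_three_mod_eight_not_congruent (p : ℕ) (hp : p.Prime) (h8 : p % 8 = 3) :
    ¬ ∃ a b c : ℚ, 0 < a ∧ 0 < b ∧ 0 < c ∧ a ^ 2 + b ^ 2 = c ^ 2 ∧ a * b / 2 = p :=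
  haveI := Fact.mk hp
  not_congruent_of_step hp.squarefree fun _ _ _ hn hnm hmn hodd e IH =>
    step h8 hn hnm hmn hodd e IH

/-- The rational points of `y² = x³ - p² x` for a prime `p ≡ 3 (mod 8)`. -/
theorem point_group_prime_three_mod_eight (p : ℕ) (hp : p.Prime) (h8 : p % 8 = 3) :
    Nonempty ((⟨0, 0, 0, -(p : ℚ) ^ 2, 0⟩ : WeierstrassCurve ℚ).toAffine.Point ≃+
      ZMod 2 × ZMod 2) :=
  point_equiv_of_not_congruent hp.ne_zero (prime_three_mod_eight_not_congruent p hp h8)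

end FA.Summary

end
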