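import Fermat.Agent.CongruentNumber.Prime
import Fermat.Agent.Curve17.Descent
import Fermat.Agent.MordellWeil.Structure

/-!
# The two-descent on `y² = x³ - p² x` for a prime `p ≡ 5, 7 (mod 8)`

After adding torsion every point has `x` a square and `x - p` a square or `δ` times one, where
`δ = p` for `p ≡ 5` and `δ = 2` for `p ≡ 7`. A point with `x`, `x - p` squares is twice a point, and
the sum of two points of the other kind has this shape: the rank is at most one.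
-/

set_option autoImplicit false
set_option linter.style.haveILetI false

noncomputable section

open WeierstrassCurve
open FA.Curve17 (sq_or_prime_mul_sq)

namespace FA.CongruentNumber

variable {n : ℕ}

theorem equation_congCurve {x y : ℚ} (h : (congCurve n).toAffine.Nonsingular x y) :
    y ^ 2 = x ^ 3 - (n : ℚ) ^ 2 * x := by
  have := (Affine.equation_iff x y).mp h.1
  simp at this
  linear_combination this

theorem negY_congCurve (x y : ℚ) : (congCurve n).toAffine.negY x y = -y := by simp [Affine.negY]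

/-- The chord. -/
theorem exists_add {x₁ y₁ x₂ y₂ : ℚ} (h₁ : (congCurve n).toAffine.Nonsingular x₁ y₁)
    (h₂ : (congCurve n).toAffine.Nonsingular x₂ y₂) (hx : x₁ ≠ x₂) :
    ∃ x y h, Affine.Point.some x₁ y₁ h₁ + Affine.Point.some x₂ y₂ h₂ = Affine.Point.some x y h ∧
      x = ((y₁ - y₂) / (x₁ - x₂)) ^ 2 - x₁ - x₂ := by
  refine ⟨_, _, _, Affine.Point.add_of_X_ne hx, ?_⟩
  rw [Affine.slope_of_X_ne hx]
  simp [Affine.addX]

/-- The product over the three points of a line. -/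
theorem chord_product {x₁ y₁ x₂ y₂ : ℚ} (e : ℚ) (h1 : y₁ ^ 2 = x₁ ^ 3 - (n : ℚ) ^ 2 * x₁)
    (h2 : y₂ ^ 2 = x₂ ^ 3 - (n : ℚ) ^ 2 * x₂) (hx : x₁ ≠ x₂) :
    (x₁ - e) * (x₂ - e) * (((y₁ - y₂) / (x₁ - x₂)) ^ 2 - x₁ - x₂ - e) =
      ((y₁ - y₂) / (x₁ - x₂) * (e - x₁) + y₁) ^ 2 - (e ^ 3 - (n : ℚ) ^ 2 * e) := by
  set l := (y₁ - y₂) / (x₁ - x₂) with hl
  have hd : x₁ - x₂ ≠ 0 := sub_ne_zero.mpr hx
  have hy : y₂ = y₁ + l * (x₂ - x₁) := by
    have : l * (x₁ - x₂) = y₁ - y₂ := div_mul_cancel₀ _ hd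
    linarith
  clear_value l
  clear hl
  subst hy
  refine mul_left_cancel₀ hd ?_
  linear_combination (e - x₁) * h2 - (e - x₂) * h1

/-- `P` is twice a point up to torsion. -/
def Halved (P : (congCurve n).toAffine.Point) : Prop := ∃ R, IsOfFinAddOrder (P - 2 • R)

theorem halved_of_torsion {P : (congCurve n).toAffine.Point} (h : IsOfFinAddOrder P) : Halved P :=
  ⟨0, by simpa using h⟩

theorem halved_of_add {P t : (congCurve n).toAffine.Point} (ht : IsOfFinAddOrder t)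
    (h : Halved (P + t)) : Halved P := by
  obtain ⟨R, hR⟩ := h
  refine ⟨R, ?_⟩
  have := hR.add ht.neg
  rwa [show P + t - 2 • R + -t = P - 2 • R by abel] at this

theorem isOfFinAddOrder_of_y_eq_zero {x y : ℚ} {h : (congCurve n).toAffine.Nonsingular x y}
    (hy : y = 0) : IsOfFinAddOrder (Affine.Point.some x y h) := by
  subst hy
  exact isOfFinAddOrder_iff_nsmul_eq_zero.mpr ⟨2, two_pos, two_smul_congCurve h⟩

/-- A point with `x` and `x - n` squares is twice a point. -/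
theorem exists_half (hn : n ≠ 0) {x y : ℚ} (h : (congCurve n).toAffine.Nonsingular x y)
    (hy : y ≠ 0) (ha : IsSquare x) (hb : IsSquare (x - n)) :
    ∃ R, 2 • R = Affine.Point.some x y h := by
  obtain ⟨a, rfl⟩ := ha
  obtain ⟨b, hb⟩ := hb
  have e := equation_congCurve h
  have hn' : (n : ℚ) ≠ 0 := Nat.cast_ne_zero.mpr hn
  have hne : a * a * (a * a - n) * (a * a + n) ≠ 0 := by
    rw [show a * a * (a * a - n) * (a * a + n) = y ^ 2 by linear_combination -e]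
    exact pow_ne_zero 2 hy
  have ha0 : a ≠ 0 := by rintro rfl; simp at hne
  have hb0 : b ≠ 0 := by rintro rfl; rw [hb] at hne; simp at hne
  obtain ⟨c, hc⟩ : ∃ c, a * b * c = y := ⟨y / (a * b), by field_simp⟩
  have hcc : c * c = a * a + n := mul_left_cancel₀ (mul_ne_zero (mul_ne_zero ha0 ha0)
    (mul_ne_zero hb0 hb0)) (by
      subst hc
      linear_combination e + a * a * (a * a + n) * hb)
  have ne : ∀ u v : ℚ, u * u - v * v ≠ 0 → u + v ≠ 0 := fun u v huv hs =>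
    huv (by linear_combination (u - v) * hs)
  have hab : a + b ≠ 0 := ne a b (by rw [← hb]; simpa using hn')
  have hac : c + a ≠ 0 := ne c a (by rw [hcc]; simpa using hn')
  have hcb : c + b ≠ 0 := ne c b (by rw [hcc, ← hb]; ring_nf; simpa using hn')
  set X := a * a + (a * b + a * c + b * c)
  set Y := (a + b) * (c + a) * (c + b)
  have hY : Y ≠ 0 := mul_ne_zero (mul_ne_zero hab hac) hcb
  have eX : X = (a + b) * (c + a) := by simp only [X]; ring
  have eXm : X - n = (a + b) * (c + b) := by simp only [X]; linear_combination hb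
  have eXp : X + n = (c + a) * (c + b) := by simp only [X]; linear_combination -hcc
  have hXY : (congCurve n).toAffine.Nonsingular X Y := nonsingular_congCurve hn (by
    rw [show X ^ 3 - (n : ℚ) ^ 2 * X = X * (X - n) * (X + n) by ring, eXm, eXp, eX]
    ring)
  refine ⟨.some X Y hXY, ?_⟩
  have hneY : Y ≠ (congCurve n).toAffine.negY X Y := by
    rw [negY_congCurve]
    intro he
    exact hY (by linarith)
  rw [two_nsmul, Affine.Point.add_self_of_Y_ne hneY]
  have hl : (congCurve n).toAffine.slope X X Y Y = a + b + c := by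
    rw [Affine.slope_of_Y_ne rfl hneY, negY_congCurve, div_eq_iff (by simpa using hY)]
    have : 3 * X ^ 2 - (n : ℚ) ^ 2 = X * (X - n) + X * (X + n) + (X - n) * (X + n) := by ring
    simp only [eXm, eXp] at this
    rw [eX] at this ⊢
    simp only [Y]
    simp
    linear_combination this
  have e1 : (congCurve n).toAffine.addX X X (a + b + c) = a * a := by
    simp [Affine.addX, X]
    linear_combination hcc - hb
  have e2 : (congCurve n).toAffine.addY X X Y (a + b + c) = y := by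
    rw [Affine.addY, negY_congCurve, Affine.negAddY, e1, ← hc]
    simp only [X, Y]
    ring
  simp only [hl, e1, e2]

theorem isSquare_third {δ u v w L : ℚ} (hδ : δ ≠ 0) (hu : IsSquare (δ * u)) (hv : IsSquare (δ * v))
    (hu0 : u ≠ 0) (hv0 : v ≠ 0) (e : u * v * w = L ^ 2) : IsSquare w := by
  obtain ⟨r, hr⟩ := hu
  obtain ⟨s, hs⟩ := hv
  have hrs : r * s ≠ 0 := by
    intro h0
    apply mul_ne_zero (mul_ne_zero hδ hu0) (mul_ne_zero hδ hv0)
    rw [hr, hs, show r * r * (s * s) = (r * s) * (r * s) by ring, h0, zero_mul]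
  refine ⟨δ * L / (r * s), ?_⟩
  rw [div_mul_div_comm, eq_div_iff (mul_ne_zero hrs hrs)]
  linear_combination δ ^ 2 * e - δ * v * w * hr - r * r * w * hs

/-- Two points of the second kind sum to twice a point up to torsion. -/
theorem halved_add (hn : n ≠ 0) {δ : ℚ} (hδ : δ ≠ 0) {x₁ y₁ x₂ y₂ : ℚ}
    {h₁ : (congCurve n).toAffine.Nonsingular x₁ y₁} {h₂ : (congCurve n).toAffine.Nonsingular x₂ y₂}
    (hy₁ : y₁ ≠ 0) (hy₂ : y₂ ≠ 0) (a₁ : IsSquare x₁) (a₂ : IsSquare x₂)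
    (b₁ : IsSquare (δ * (x₁ - n))) (b₂ : IsSquare (δ * (x₂ - n))) :
    Halved (Affine.Point.some x₁ y₁ h₁ + Affine.Point.some x₂ y₂ h₂) := by
  have e₁ := equation_congCurve h₁
  have e₂ := equation_congCurve h₂
  by_cases hx : x₁ = x₂
  · subst hx
    rcases sq_eq_sq_iff_eq_or_eq_neg.1 (e₁.trans e₂.symm) with rfl | rfl
    · exact ⟨Affine.Point.some x₁ y₁ h₁, by rw [two_nsmul, sub_self]; exact IsOfFinAddOrder.zero⟩
    · rw [Affine.Point.add_of_Y_eq rfl (negY_congCurve x₁ y₂).symm]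
      exact halved_of_torsion IsOfFinAddOrder.zero
  obtain ⟨x, y, h, hadd, hxv⟩ := exists_add h₁ h₂ hx
  rw [hadd]
  by_cases hy : y = 0
  · exact halved_of_torsion (isOfFinAddOrder_of_y_eq_zero hy)
  have ne : ∀ {x y : ℚ}, y ^ 2 = x ^ 3 - (n : ℚ) ^ 2 * x → y ≠ 0 → x ≠ 0 ∧ x - n ≠ 0 :=
    fun {x y} e hy => ⟨fun h0 => hy (by rw [h0] at e; simpa using e), fun h0 => hy (by
      rw [show x = (n : ℚ) by linarith] at e; simpa using e.trans (by ring : _ = (0 : ℚ)))⟩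
  obtain ⟨R, hR⟩ := exists_half hn h hy
    (isSquare_third one_ne_zero (u := x₁) (v := x₂) (by simpa using a₁) (by simpa using a₂)
      (ne e₁ hy₁).1 (ne e₂ hy₂).1 (L := (y₁ - y₂) / (x₁ - x₂) * (0 - x₁) + y₁) (by
        rw [hxv]; linear_combination chord_product 0 e₁ e₂ hx))
    (isSquare_third hδ b₁ b₂ (ne e₁ hy₁).2 (ne e₂ hy₂).2
      (L := (y₁ - y₂) / (x₁ - x₂) * ((n : ℚ) - x₁) + y₁) (by
        rw [hxv]; linear_combination chord_product (n : ℚ) e₁ e₂ hx))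
  exact ⟨R, by rw [hR, sub_self]; exact IsOfFinAddOrder.zero⟩

variable {p : ℕ} [hp : Fact p.Prime]

/-- For `x > p` the abscissa is a square or `p` times a square. -/
theorem isSquare_or_prime {x y : ℚ} (e : y ^ 2 = x ^ 3 - (p : ℚ) ^ 2 * x) (hx : (p : ℚ) < x) :
    IsSquare x ∨ ∃ s : ℚ, x = p * s ^ 2 := by
  have hpI : Prime (p : ℤ) := Nat.prime_iff_prime_int.mp hp.out
  have hd : (0 : ℤ) < x.den := by exact_mod_cast x.den_pos
  have hdq : ((x.den : ℤ) : ℚ) ≠ 0 := Int.cast_ne_zero.mpr hd.ne'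
  have hnd : (x.num : ℚ) = x * ((x.den : ℤ) : ℚ) := by
    exact_mod_cast (Rat.mul_den_eq_num x).symm
  have hx0 : 0 < x := lt_of_le_of_lt (Nat.cast_nonneg p) hx
  have ha : 0 < x.num := Rat.num_pos.mpr hx0
  have hco : IsCoprime x.num (x.den : ℤ) := by
    rw [Int.isCoprime_iff_gcd_eq_one, Int.gcd, Int.natAbs_natCast]
    exact x.reduced
  set a := x.num
  set d : ℤ := (x.den : ℤ)
  have hrest : 0 < a ^ 2 - (p : ℤ) ^ 2 * d ^ 2 := by
    have h1 : (0 : ℚ) < ((d : ℤ) : ℚ) ^ 2 * ((x - p) * (x + p)) :=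
      mul_pos (by positivity) (mul_pos (sub_pos.mpr hx) (by positivity))
    have h2 : (0 : ℚ) < ((a ^ 2 - (p : ℤ) ^ 2 * d ^ 2 : ℤ) : ℚ) := by
      push_cast; rw [hnd]; linarith
    exact_mod_cast h2
  obtain ⟨W, hW⟩ : IsSquare (d * (a * (a ^ 2 - (p : ℤ) ^ 2 * d ^ 2))) := by
    refine Rat.isSquare_intCast_iff.1 ⟨y * ((d : ℤ) : ℚ) ^ 2, ?_⟩
    push_cast; rw [hnd]
    linear_combination -((d : ℤ) : ℚ) ^ 4 * e
  rw [← sq] at hW
  have hc : IsCoprime d (a * (a ^ 2 - (p : ℤ) ^ 2 * d ^ 2)) := by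
    refine hco.symm.mul_right ?_
    have := (hco.pow_left (m := 2)).symm.add_mul_left_right (-(p : ℤ) ^ 2 * d)
    rwa [show a ^ 2 + d * (-(p : ℤ) ^ 2 * d) = a ^ 2 - (p : ℤ) ^ 2 * d ^ 2 by ring] at this
  obtain ⟨r, hr⟩ := sq_of_coprime_pos hc hd hW
  obtain ⟨f, hf⟩ := sq_of_coprime_pos hc.symm (mul_pos ha hrest) ((mul_comm _ _).trans hW)
  have hxe : x = (a : ℚ) / (r : ℚ) ^ 2 := by
    rw [hr, Int.cast_pow] at hnd hdq
    rw [hnd, mul_div_assoc, div_self hdq, mul_one]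
  obtain ⟨s, hs | hs | hs | hs⟩ :=
      sq_or_prime_mul_sq hpI _ a _ f le_rfl ha.ne' hf fun q hq h1 h2 => by
    have : q ∣ (p : ℤ) ^ 2 * d ^ 2 := by simpa using dvd_sub (dvd_pow h1 two_ne_zero) h2
    rcases hq.dvd_or_dvd this with h | h
    · exact hq.dvd_of_dvd_pow h
    · exact absurd (hco.isUnit_of_dvd' h1 (hq.dvd_of_dvd_pow h)) hq.not_isUnit
  · exact Or.inl ⟨s / r, by rw [hxe, hs]; push_cast; ring⟩
  · nlinarith [sq_nonneg s]
  · exact Or.inr ⟨s / r, by rw [hxe, hs]; push_cast; ring⟩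
  · have := hp.out.pos
    nlinarith [mul_nonneg (Int.natCast_nonneg p) (sq_nonneg s)]

/-- The multiplier of the second kind of point. -/
def descentClass (p : ℕ) : ℚ := if p % 8 = 5 then p else 2

theorem descentClass_ne_zero : descentClass p ≠ 0 := by
  unfold descentClass
  split_ifs
  · exact Nat.cast_ne_zero.mpr hp.out.ne_zero
  · exact two_ne_zero

/-- The descent proper: `x` a square leaves two classes for `x - p`. -/
theorem classify (h8 : p % 8 = 5 ∨ p % 8 = 7) {x y : ℚ}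
    (e : y ^ 2 = x ^ 3 - (p : ℚ) ^ 2 * x) (hs : IsSquare x) (hx : (p : ℚ) < x) :
    IsSquare (x - p) ∨ IsSquare (descentClass p * (x - p)) := by
  obtain ⟨t, rfl⟩ := hs
  have hpI : Prime (p : ℤ) := Nat.prime_iff_prime_int.mp hp.out
  have htd : ((t.den : ℤ) : ℚ) ≠ 0 :=
    Int.cast_ne_zero.mpr (Int.natCast_ne_zero.mpr t.den_ne_zero)
  have hnd : (t.num : ℚ) = t * ((t.den : ℤ) : ℚ) := by exact_mod_cast (Rat.mul_den_eq_num t).symm
  have hco : IsCoprime t.num (t.den : ℤ) := by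
    rw [Int.isCoprime_iff_gcd_eq_one, Int.gcd, Int.natAbs_natCast]
    exact t.reduced
  have ht0 : t ≠ 0 := by
    rintro rfl
    have h1 : (0 : ℚ) ≤ p := Nat.cast_nonneg p
    simp at hx
    linarith
  set A := t.num
  set d : ℤ := (t.den : ℤ)
  have hu : 0 < A ^ 2 - p * d ^ 2 := by
    have h1 : (0 : ℚ) < ((d : ℤ) : ℚ) ^ 2 * (t * t - p) :=
      mul_pos (by positivity) (sub_pos.mpr hx)
    have h2 : (0 : ℚ) < ((A ^ 2 - p * d ^ 2 : ℤ) : ℚ) := by push_cast; rw [hnd]; linarith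
    exact_mod_cast h2
  have hxp : t * t - p = ((A ^ 2 - p * d ^ 2 : ℤ) : ℚ) / ((d : ℤ) : ℚ) ^ 2 := by
    push_cast; rw [hnd]; field_simp
  obtain ⟨W, hW⟩ : IsSquare ((A ^ 2 - p * d ^ 2) * (A ^ 2 + p * d ^ 2)) := by
    refine Rat.isSquare_intCast_iff.1 ⟨y * ((d : ℤ) : ℚ) ^ 2 / t, ?_⟩
    push_cast; rw [hnd]; field_simp
    linear_combination -e
  have notboth : ∀ {q : ℤ}, Prime q → q ∣ A → q ∣ d → False := fun hq h1 h2 =>
    hq.not_isUnit (hco.isUnit_of_dvd' h1 h2)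
  -- the congruences modulo `8`
  have mod8 : ∀ {u v b : ℤ} {i j : ℤ}, (i = 1 ∧ j = 5) ∨ (i = 5 ∧ j = 1) ∨ (i = 7 ∧ j = 1) →
      ((i * u ^ 2 - j * v ^ 2 : ℤ) : ZMod 8) = ((2 * b ^ 2 : ℤ) : ZMod 8) →
      (2 : ℤ) ∣ u ∧ (2 : ℤ) ∣ v := by
    intro u v b i j hij h
    have key : ∀ u v b : ZMod 8, (1 * u ^ 2 - 5 * v ^ 2 = 2 * b ^ 2 ∨
          5 * u ^ 2 - 1 * v ^ 2 = 2 * b ^ 2
        ∨ 7 * u ^ 2 - 1 * v ^ 2 = 2 * b ^ 2) → 4 * u = 0 ∧ 4 * v = 0 := by decide +kernel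
    push_cast at h
    obtain ⟨h1, h2⟩ := key (u : ZMod 8) (v : ZMod 8) (b : ZMod 8) (by
      rcases hij with ⟨rfl, rfl⟩ | ⟨rfl, rfl⟩ | ⟨rfl, rfl⟩ <;> norm_num at h ⊢ <;> tauto)
    have half : ∀ w : ℤ, 4 * (w : ZMod 8) = 0 → (2 : ℤ) ∣ w := fun w hw => by
      have h' : ((8 : ℕ) : ℤ) ∣ 4 * w := (ZMod.intCast_zmod_eq_zero_iff_dvd _ 8).mp (by
        push_cast; exact hw)
      omega
    exact ⟨half u h1, half v h2⟩
  have hp8 : (p : ZMod 8) = ((p % 8 : ℕ) : ZMod 8) := (ZMod.natCast_mod p 8).symm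
  by_cases hpA : (p : ℤ) ∣ A
  swap
  · obtain ⟨b, hb | hb | hb | hb⟩ := sq_or_prime_mul_sq Int.prime_two _ _ _ W le_rfl hu.ne'
      (hW.trans (sq W).symm) fun q hq h1 h2 => by
        have e1 : q ∣ 2 * A ^ 2 := by
          have := dvd_add h1 h2
          rwa [show A ^ 2 - p * d ^ 2 + (A ^ 2 + p * d ^ 2) =
            2 * A ^ 2 by ring] at this
        have e2 : q ∣ 2 * ((p : ℤ) * d ^ 2) := by
          have := dvd_sub h2 h1
          rwa [show A ^ 2 + p * d ^ 2 - (A ^ 2 - p * d ^ 2) =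
            2 * ((p : ℤ) * d ^ 2) by ring] at this
        refine (hq.dvd_or_dvd e1).elim id fun hA => (hq.dvd_or_dvd e2).elim id fun hpd => ?_
        have hA' := hq.dvd_of_dvd_pow hA
        rcases hq.dvd_or_dvd hpd with hqp | hqd
        · exact absurd ((hq.associated_of_dvd hpI hqp).symm.dvd.trans hA') hpA
        · exact (notboth hq hA' (hq.dvd_of_dvd_pow hqd)).elim
    · exact Or.inl ⟨(b : ℚ) / d, by rw [hxp, hb]; push_cast; field_simp⟩
    · nlinarith [sq_nonneg b]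
    · rcases h8 with h5 | h7
      · exfalso
        obtain ⟨h1, h2⟩ := mod8 (u := A) (v := d) (b := b) (Or.inl ⟨rfl, rfl⟩) (by
          rw [← hb]; push_cast; rw [hp8, h5]; norm_num)
        exact notboth Int.prime_two h1 h2
      · refine Or.inr ⟨2 * (b : ℚ) / d, ?_⟩
        rw [descentClass, if_neg (by omega), hxp, hb]; push_cast; field_simp
    · nlinarith [sq_nonneg b]
  obtain ⟨A', hA'⟩ := hpA
  obtain ⟨W', rfl⟩ : (p : ℤ) ∣ W := hpI.dvd_of_dvd_pow (n := 2)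
    ⟨(p * A' ^ 2 - d ^ 2) * (p * (p * A' ^ 2 + d ^ 2)),
    by rw [sq, ← hW, hA']; ring⟩
  have hp0 : (p : ℤ) ≠ 0 := hpI.ne_zero
  have hW' : (p * A' ^ 2 - d ^ 2) * (p * A' ^ 2 + d ^ 2) = W' ^ 2 :=
    mul_left_cancel₀ (pow_ne_zero 2 hp0) (by rw [hA'] at hW; linear_combination hW)
  have hu' : 0 < p * A' ^ 2 - d ^ 2 := pos_of_mul_pos_right
    (show (0 : ℤ) < p * (p * A' ^ 2 - d ^ 2) by rw [hA'] at hu; linear_combination hu)
    (Int.natCast_nonneg p)
  obtain ⟨b, hb | hb | hb | hb⟩ := sq_or_prime_mul_sq Int.prime_two _ _ _ W' le_rfl hu'.ne' hW'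
    fun q hq h1 h2 => by
      have e1 : q ∣ 2 * d ^ 2 := by
        have := dvd_sub h2 h1
        rwa [show p * A' ^ 2 + d ^ 2 - (p * A' ^ 2 - d ^ 2) =
          2 * d ^ 2 by ring] at this
      have e2 : q ∣ 2 * ((p : ℤ) * A' ^ 2) := by
        have := dvd_add h1 h2
        rwa [show p * A' ^ 2 - d ^ 2 + (p * A' ^ 2 + d ^ 2) =
          2 * ((p : ℤ) * A' ^ 2) by ring] at this
      refine (hq.dvd_or_dvd e1).elim id fun hd => (hq.dvd_or_dvd e2).elim id fun hpa => ?_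
      refine (notboth hq (hA' ▸ ?_) (hq.dvd_of_dvd_pow hd)).elim
      rcases hq.dvd_or_dvd hpa with hqp | hqa
      · exact hqp.mul_right A'
      · exact (hq.dvd_of_dvd_pow hqa).mul_left _
  · rcases h8 with h5 | h7
    · refine Or.inr ⟨(p : ℚ) * b / d, ?_⟩
      rw [descentClass, if_pos h5, hxp, hA',
        show ((p : ℤ) * A') ^ 2 - p * d ^ 2 = p * (p * A' ^ 2 - d ^ 2) by ring, hb]
      push_cast; field_simp
    · exfalso
      exact notboth hpI (hA' ▸ dvd_mul_right _ _)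
        (dvd_of_sq_add_sq (c := b) (by omega) ⟨A' ^ 2, by linarith⟩)
  · nlinarith [sq_nonneg b]
  · exfalso
    obtain ⟨h1, h2⟩ : (2 : ℤ) ∣ A' ∧ (2 : ℤ) ∣ d := by
      rcases h8 with h5 | h7
      · exact mod8 (b := b) (Or.inr (Or.inl ⟨rfl, rfl⟩))
          (by rw [← hb]; push_cast; rw [hp8, h5]; norm_num)
      · exact mod8 (b := b) (Or.inr (Or.inr ⟨rfl, rfl⟩))
          (by rw [← hb]; push_cast; rw [hp8, h7]; norm_num)
    exact notboth Int.prime_two (hA' ▸ h1.mul_left _) h2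
  · nlinarith [sq_nonneg b]

/-- A torsion translate of a point of infinite order has `x > p` a square. -/
theorem exists_translate {P : (congCurve p).toAffine.Point} (hP : ¬ IsOfFinAddOrder P) :
    ∃ t, IsOfFinAddOrder t ∧ ∃ x y h, P + t = Affine.Point.some x y h ∧ y ≠ 0 ∧ (p : ℚ) < x ∧
      IsSquare x := by
  have hp0 : p ≠ 0 := hp.out.ne_zero
  have keep : ∀ {P t : (congCurve p).toAffine.Point}, ¬ IsOfFinAddOrder P → IsOfFinAddOrder t →
      ¬ IsOfFinAddOrder (P + t) := fun {P t} hP ht h => hP (by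
    simpa using h.add ht.neg)
  have affine : ∀ {P : (congCurve p).toAffine.Point}, ¬ IsOfFinAddOrder P →
      ∃ x y h, P = Affine.Point.some x y h ∧ y ≠ 0 := by
    intro P hP
    rcases P with _ | ⟨x, y, h⟩
    · exact absurd IsOfFinAddOrder.zero hP
    · exact ⟨x, y, h, rfl, fun hy => hP (isOfFinAddOrder_of_y_eq_zero hy)⟩
  let T₀ : (congCurve p).toAffine.Point := .some 0 0 (nonsingular_congCurve hp0 (by ring))
  let T₁ : (congCurve p).toAffine.Point := .some (p : ℚ) 0 (nonsingular_congCurve hp0 (by ring))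
  have hT₀ : IsOfFinAddOrder T₀ := isOfFinAddOrder_of_y_eq_zero rfl
  have hT₁ : IsOfFinAddOrder T₁ := isOfFinAddOrder_of_y_eq_zero rfl
  have large : ∀ {x y : ℚ}, y ^ 2 = x ^ 3 - (p : ℚ) ^ 2 * x → y ≠ 0 → 0 < x → (p : ℚ) < x := by
    intro x y e hy hx
    have h1 : 0 < x * (x ^ 2 - (p : ℚ) ^ 2) := by
      rw [show x * (x ^ 2 - (p : ℚ) ^ 2) = y ^ 2 by linear_combination -e]; positivity
    exact lt_of_pow_lt_pow_left₀ 2 hx.le (sub_pos.mp (pos_of_mul_pos_right h1 hx.le))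
  obtain ⟨t₁, ht₁, x, y, h, ha, hy, hx⟩ : ∃ t, IsOfFinAddOrder t ∧ ∃ x y h,
      P + t = Affine.Point.some x y h ∧ y ≠ 0 ∧ (p : ℚ) < x := by
    obtain ⟨x, y, h, rfl, hy⟩ := affine hP
    have e := equation_congCurve h
    have hx0 : x ≠ 0 := fun h0 => hy (by rw [h0] at e; simpa using e)
    rcases lt_or_gt_of_ne hx0 with hneg | hpos
    · obtain ⟨x', y', h', ha, hxv⟩ := exists_add h (nonsingular_congCurve hp0 (by ring) :
        (congCurve p).toAffine.Nonsingular 0 0) hx0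
      obtain ⟨x'', y'', h'', ha', hy'⟩ := affine (keep hP hT₀)
      rw [show T₀ = Affine.Point.some 0 0 _ from rfl, ha] at ha'
      obtain ⟨rfl, rfl⟩ := Affine.Point.some.inj ha'
      refine ⟨T₀, hT₀, x', y', h', ha, hy', large (equation_congCurve h') hy' ?_⟩
      rw [hxv, show ((y - 0) / (x - 0)) ^ 2 - x - 0 = (p : ℚ) ^ 2 / (-x) by
        rw [sub_zero, sub_zero, sub_zero]; field_simp; linear_combination e]
      have : (0 : ℚ) < -x := neg_pos.mpr hneg
      have : (0 : ℚ) < p := Nat.cast_pos.mpr hp.out.pos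
      positivity
    · exact ⟨0, IsOfFinAddOrder.zero, x, y, h, add_zero _, hy, large e hy hpos⟩
  have e := equation_congCurve h
  rcases isSquare_or_prime e hx with hsq | ⟨s, hs⟩
  · exact ⟨t₁, ht₁, x, y, h, ha, hy, hx, hsq⟩
  obtain ⟨x', y', h', hb, hxv⟩ := exists_add h (nonsingular_congCurve hp0 (by ring) :
    (congCurve p).toAffine.Nonsingular (p : ℚ) 0) hx.ne'
  obtain ⟨x'', y'', h'', hb', hy'⟩ := affine (keep (ha ▸ keep hP ht₁) hT₁)
  rw [show T₁ = Affine.Point.some (p : ℚ) 0 _ from rfl, hb] at hb'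
  obtain ⟨rfl, rfl⟩ := Affine.Point.some.inj hb'
  have hxp : x - p ≠ 0 := sub_ne_zero.mpr hx.ne'
  have hs0 : s ≠ 0 := fun h0 => by
    rw [h0] at hs
    have : (0 : ℚ) ≤ p := Nat.cast_nonneg p
    simp at hs
    linarith
  have hx' : x' = (p : ℚ) * (x + p) / (x - p) := by
    rw [hxv, sub_zero]; field_simp; linear_combination e
  refine ⟨t₁ + T₁, ht₁.add hT₁, x', y', h', by rw [← add_assoc, ha, hb], hy', ?_, ?_⟩
  · refine large (equation_congCurve h') hy' ?_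
    rw [hx']
    have : (0 : ℚ) < x - p := sub_pos.mpr hx
    have : (0 : ℚ) < p := Nat.cast_pos.mpr hp.out.pos
    have : (0 : ℚ) < x := by linarith
    positivity
  · refine ⟨y / (s * (x - p)), ?_⟩
    rw [hx']
    field_simp
    rw [e, hs]
    ring

/-- Of any two points and their sum one is twice a point up to torsion. -/
theorem halved_or (h8 : p % 8 = 5 ∨ p % 8 = 7) {P Q : (congCurve p).toAffine.Point}
    (hP : ¬ Halved P) (hQ : ¬ Halved Q) : Halved (P + Q) := by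
  have kind : ∀ {P : (congCurve p).toAffine.Point}, ¬ Halved P → ∃ t, IsOfFinAddOrder t ∧
      ∃ x y h, P + t = Affine.Point.some x y h ∧ y ≠ 0 ∧ IsSquare x ∧
        IsSquare (descentClass p * (x - p)) := by
    intro P hP
    obtain ⟨t, ht, x, y, h, ha, hy, hx, hsq⟩ :=
      exists_translate fun hf => hP (halved_of_torsion hf)
    refine ⟨t, ht, x, y, h, ha, hy, hsq, ?_⟩
    refine (classify h8 (equation_congCurve h) hsq hx).resolve_left fun hb => hP ?_
    obtain ⟨R, hR⟩ := exists_half hp.out.ne_zero h hy hsq hb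
    exact halved_of_add ht ⟨R, by rw [ha, hR, sub_self]; exact IsOfFinAddOrder.zero⟩
  obtain ⟨t, ht, x₁, y₁, h₁, ha, hy₁, a₁, b₁⟩ := kind hP
  obtain ⟨s, hs, x₂, y₂, h₂, hb, hy₂, a₂, b₂⟩ := kind hQ
  refine halved_of_add (ht.add hs) ?_
  rw [show P + Q + (t + s) = (P + t) + (Q + s) by abel, ha, hb]
  exact halved_add hp.out.ne_zero descentClass_ne_zero hy₁ hy₂ a₁ a₂ b₁ b₂

/-- The point group is `ℤ/2 × ℤ/2` times a free group of rank at most one. -/
theorem exists_rank_le_one (h8 : p % 8 = 5 ∨ p % 8 = 7) :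
    ∃ r ≤ 1, Nonempty ((congCurve p).toAffine.Point ≃+ (ZMod 2 × ZMod 2) × (Fin r → ℤ)) := by
  haveI := isElliptic_congCurve (n := p) hp.out.ne_zero
  haveI := FA.MordellWeil.mordell (congCurve p)
  obtain ⟨r, ⟨e⟩⟩ := FA.MordellWeil.exists_equiv_torsion_prod (congCurve p).toAffine.Point
  obtain ⟨f⟩ := (torsion_congCurve (n := p) hp.out.ne_zero).2
  refine ⟨r, ?_, ⟨e.trans (f.prodCongr (AddEquiv.refl _))⟩⟩
  by_contra! hr
  have even : ∀ {P}, Halved P → ∀ k, (2 : ℤ) ∣ (e P).2 k := by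
    rintro P ⟨R, hR⟩ k
    have h0 := (((AddMonoidHom.snd _ _).comp e.toAddMonoidHom).isOfFinAddOrder hR)
    obtain ⟨m, hm, hm0⟩ := isOfFinAddOrder_iff_nsmul_eq_zero.mp h0
    have := congrFun hm0 k
    simp [hm.ne', map_nsmul] at this
    exact ⟨(e R).2 k, by linarith⟩
  let u (k : Fin r) : (congCurve p).toAffine.Point := e.symm (0, Pi.single k 1)
  have odd : ∀ k, ¬ Halved (u k) := fun k h => by
    have h1 : (2 : ℤ) ∣ 1 := by simpa [u] using even h k
    omega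
  set i : Fin r := ⟨0, by omega⟩
  set j : Fin r := ⟨1, by omega⟩
  have h1 : (2 : ℤ) ∣ 1 := by
    simpa [u, i, j, Fin.ext_iff] using even (halved_or h8 (odd i) (odd j)) i
  omega

end FA.CongruentNumber

namespace FA.Summary

open FA.CongruentNumber

/-- **A congruent prime `p ≡ 5, 7 (mod 8)`**: the rational points of `y² = x³ - p² x` are
`ℤ × ℤ/2 × ℤ/2`. -/
theorem point_group_prime_five_seven_mod_eight (p : ℕ) (hp : p.Prime)
    (h8 : p % 8 = 5 ∨ p % 8 = 7)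
    (hc : ∃ a b c : ℚ, 0 < a ∧ 0 < b ∧ 0 < c ∧ a ^ 2 + b ^ 2 = c ^ 2 ∧ a * b / 2 = p) :
    Nonempty ((⟨0, 0, 0, -(p : ℚ) ^ 2, 0⟩ : WeierstrassCurve ℚ).toAffine.Point ≃+
      ℤ × ZMod 2 × ZMod 2) := by
  haveI := Fact.mk hp
  haveI : Infinite (congCurve p).toAffine.Point :=
    (congruentNumber_iff_infinite p hp.ne_zero).mp hc
  obtain ⟨r, hr, ⟨e⟩⟩ := exists_rank_le_one h8
  obtain rfl : r = 1 := by
    rcases Nat.le_one_iff_eq_zero_or_eq_one.mp hr with rfl | rfl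
    · exact (not_finite_iff_infinite.mpr ‹_› (Finite.of_equiv _ e.toEquiv.symm)).elim
    · rfl
  exact ⟨e.trans (AddEquiv.prodComm.trans
    ((AddEquiv.mk' (Equiv.funUnique (Fin 1) ℤ) fun _ _ => rfl).prodCongr (AddEquiv.refl _)))⟩

/-- **The rank of `y² = x³ - p² x`** is at most one for primes `p ≡ 5, 7 (mod 8)`. -/
theorem rank_le_one_prime_five_seven_mod_eight (p : ℕ) (hp : p.Prime)
    (h8 : p % 8 = 5 ∨ p % 8 = 7) :
    Module.finrank ℤ (⟨0, 0, 0, -(p : ℚ) ^ 2, 0⟩ : WeierstrassCurve ℚ).toAffine.Point ≤ 1 := by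
  haveI := Fact.mk hp
  obtain ⟨r, hr, ⟨e⟩⟩ := exists_rank_le_one h8
  let s := LinearMap.snd ℤ (ZMod 2 × ZMod 2) (Fin r → ℤ)
  have h0 : Module.finrank ℤ (LinearMap.ker s) = 0 := Module.finrank_eq_zero_iff.mpr fun x =>
    ⟨2, two_ne_zero, Subtype.ext (Prod.ext ((by decide : ∀ z : ZMod 2 × ZMod 2, (2 : ℤ) • z = 0) _)
      (by show (2 : ℤ) • x.1.2 = 0; rw [show x.1.2 = 0 from x.2, smul_zero]))⟩
  have h1 := (LinearMap.ker s).finrank_quotient_add_finrank
  rw [h0, (LinearMap.quotKerEquivOfSurjective s LinearMap.snd_surjective).finrank_eq,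
    Module.finrank_pi, Fintype.card_fin] at h1
  rw [show Module.finrank ℤ (congCurve p).toAffine.Point = _ from e.toIntLinearEquiv.finrank_eq]
  omega

end FA.Summary

end
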