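import Fermat.Agent.CongruentNumber.RankOne
import Fermat.Agent.CM.CongruentParity

/-!
# The rank-one curves `y² = x³ - 25 x` and `y² = x³ - 49 x`
-/

set_option autoImplicit false

noncomputable section

open WeierstrassCurve

namespace FA.Summary

/-- **The Mordell–Weil group of `y² = x³ - 25 x`** is `ℤ × ℤ/2 × ℤ/2`. -/
theorem point_group_congruent_five :
    Nonempty ((⟨0, 0, 0, -25, 0⟩ : WeierstrassCurve ℚ).toAffine.Point ≃+
      ℤ × ZMod 2 × ZMod 2) := by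
  have h := point_group_prime_five_seven_mod_eight 5 (by norm_num) (Or.inl rfl)
    (congruent_five_six_seven (n := 5) (by simp))
  rwa [show -((5 : ℕ) : ℚ) ^ 2 = -25 by norm_num] at h

/-- **The Mordell–Weil group of `y² = x³ - 49 x`** is `ℤ × ℤ/2 × ℤ/2`. -/
theorem point_group_congruent_seven :
    Nonempty ((⟨0, 0, 0, -49, 0⟩ : WeierstrassCurve ℚ).toAffine.Point ≃+
      ℤ × ZMod 2 × ZMod 2) := by
  have h := point_group_prime_five_seven_mod_eight 7 (by norm_num) (Or.inr rfl)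
    (congruent_five_six_seven (n := 7) (by simp))
  rwa [show -((7 : ℕ) : ℚ) ^ 2 = -49 by norm_num] at h

/-- **Rank one with a central zero** for a congruent prime `p ≡ 5, 7 (mod 8)`: the point group is
`ℤ × ℤ/2 × ℤ/2` and the L-function of `y² = x³ - p² x` vanishes at `1` to odd order. -/
theorem rankOne_congruent_prime (p : ℕ) (hp : p.Prime) (h8 : p % 8 = 5 ∨ p % 8 = 7)
    (hc : ∃ a b c : ℚ, 0 < a ∧ 0 < b ∧ 0 < c ∧ a ^ 2 + b ^ 2 = c ^ 2 ∧ a * b / 2 = p) :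
    Nonempty ((⟨0, 0, 0, -(p : ℚ) ^ 2, 0⟩ : WeierstrassCurve ℚ).toAffine.Point ≃+
        ℤ × ZMod 2 × ZMod 2) ∧
      ∃ g : ℂ → ℂ, Differentiable ℂ g ∧ (∀ s : ℂ, 3 / 2 < s.re →
          g s = (⟨0, 0, 0, -(p : ℚ) ^ 2, 0⟩ : WeierstrassCurve ℚ).LSeries s) ∧
        g 1 = 0 ∧ ∃ r : ℕ, Odd r ∧ analyticOrderAt g 1 = r := by
  obtain ⟨g, hg, hgs, -, h1, hr⟩ := congruentCurve_central_zero hp.squarefree (by omega)
  exact ⟨point_group_prime_five_seven_mod_eight p hp h8 hc, g, hg, hgs, h1, hr⟩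

end FA.Summary

end
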